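import Mathlib.Analysis.Normed.Group.Tannery
import Mathlib.NumberTheory.DirichletCharacter.Basic
import Mathlib.NumberTheory.DirichletCharacter.Bounds
import Fermat.Agent.ExtVan.Partial

/-!
# `L`-series of `χ ∘ N` on a number field as `s → 1+`

For a Dirichlet character with `χ(-1) = 1`, the part of `∑ χ(N I) N I ^ (-s)` over one ideal class
is a multiple of `refSum` up to a function with a finite limit at `1+`.
-/

noncomputable section

namespace Fermat.Agent.WeightOneGalois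

open NumberField NumberField.InfinitePlace NumberField.mixedEmbedding Module
open NumberField.Units NumberField.Units.dirichletUnitTheorem
open NumberField.mixedEmbedding.fundamentalCone
open Filter Topology
open ExtVan
open scoped nonZeroDivisors Classical

variable {K : Type*} [Field K] [NumberField K]

theorem continuous_gfun (v : mixedSpace K) : Continuous fun s : ℝ => gfun s v := by
  unfold gfun
  exact continuous_const.mul
    (continuous_const.rpow continuous_neg fun _ => Or.inl (by positivity))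

/-- Translates of the lattice sums differ by a function with a limit at `1+`. -/
theorem tendsto_translate (K0 : Ideal (𝓞 K)) (r : 𝓞 K) : ∃ l : ℝ,
    Tendsto (fun s : ℝ => ∑' y : K0, (gfun s (emb ((y : 𝓞 K) + r)) - gfun s (emb (y : 𝓞 K))))
      (𝓝[>] 1) (𝓝 l) := by
  obtain ⟨C, hC⟩ := exists_gfun_translate_bound (emb (K := K) r)
  refine ⟨∑' y : K0, (gfun 1 (emb ((y : 𝓞 K) + r)) - gfun 1 (emb (y : 𝓞 K))),
    tendsto_tsum_of_dominated_convergence
      (bound := fun y : K0 => C * ((1 + ‖emb (y : 𝓞 K)‖) ^ (finrank ℚ K + 1))⁻¹)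
      (((summable_H (K := K)).subtype _).mul_left C) (fun y => ?_) ?_⟩
  · exact ((continuous_gfun _).sub (continuous_gfun _)).tendsto _ |>.mono_left nhdsWithin_le_nhds
  · filter_upwards [self_mem_nhdsWithin, nhdsWithin_le_nhds (Iic_mem_nhds one_lt_two)]
      with s hs hs2 y
    rw [Real.norm_eq_abs, emb_add, ← div_eq_mul_inv]
    exact hC s (Set.mem_Ioi.mp hs).le hs2 _

/-- The sum of `gfun s · ψ` over all integers of the field. -/
def oSum (ψ : 𝓞 K → ℂ) (s : ℝ) : ℂ := ∑' x : 𝓞 K, (gfun s (emb x) : ℂ) * ψ x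

theorem summable_gfun_emb {s : ℝ} (hs : 1 < s) : Summable fun x : 𝓞 K => gfun s (emb x) := by
  let e1 : ((1 : (Ideal (𝓞 K))⁰) : Ideal (𝓞 K)) ≃ 𝓞 K := Equiv.subtypeUnivEquiv fun x => by simp
  exact e1.summable_iff.mp (summable_lsum 1 hs)

/-- The reference sum: `oSum` with trivial weight, the analogue of `ζ_K`. -/
def refSum (K : Type*) [Field K] [NumberField K] (s : ℝ) : ℝ := ∑' x : 𝓞 K, gfun s (emb x)

theorem summable_oSum {ψ : 𝓞 K → ℂ} (hb : ∀ x, ‖ψ x‖ ≤ 1) {s : ℝ} (hs : 1 < s) :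
    Summable fun x : 𝓞 K => (gfun s (emb x) : ℂ) * ψ x := by
  refine Summable.of_norm_bounded (summable_gfun_emb hs) fun x => ?_
  rw [norm_mul, Complex.norm_real, Real.norm_eq_abs, abs_of_nonneg (gfun_nonneg _ _)]
  exact mul_le_of_le_one_right (gfun_nonneg _ _) (hb x)

/-- Periodic sums are multiples of the reference sum up to a convergent function. -/
theorem tendsto_oSum (K0 : (Ideal (𝓞 K))⁰) {ψ : 𝓞 K → ℂ} (hb : ∀ x, ‖ψ x‖ ≤ 1)
    (hper : ∀ x y : 𝓞 K, y ∈ (K0 : Ideal (𝓞 K)) → ψ (x + y) = ψ x) :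
    ∃ κ l : ℂ, Tendsto (fun s : ℝ => oSum ψ s - κ * (refSum K s : ℂ)) (𝓝[>] 1) (𝓝 l) := by
  have : Finite (𝓞 K ⧸ (K0 : Ideal (𝓞 K))) :=
    Ideal.finiteQuotientOfFreeOfNeBot _ (nonZeroDivisors.ne_zero K0.2)
  have : Fintype (𝓞 K ⧸ (K0 : Ideal (𝓞 K))) := Fintype.ofFinite _
  choose d hd using fun q : 𝓞 K ⧸ (K0 : Ideal (𝓞 K)) => tendsto_translate (K0 : Ideal (𝓞 K)) q.out
  let D : (𝓞 K ⧸ (K0 : Ideal (𝓞 K))) → ℝ → ℝ := fun q s =>
    ∑' y : (K0 : Ideal (𝓞 K)), (gfun s (emb ((y : 𝓞 K) + q.out)) - gfun s (emb (y : 𝓞 K)))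
  set n : ℂ := (Fintype.card (𝓞 K ⧸ (K0 : Ideal (𝓞 K))) : ℂ) with hn
  have hn0 : n ≠ 0 := by rw [hn]; exact Nat.cast_ne_zero.mpr Fintype.card_ne_zero
  set κ : ℂ := (∑ q : 𝓞 K ⧸ (K0 : Ideal (𝓞 K)), ψ q.out) / n with hκ
  -- decomposition
  have key : ∀ ψ' : 𝓞 K → ℂ, (∀ x, ‖ψ' x‖ ≤ 1) →
      (∀ x y : 𝓞 K, y ∈ (K0 : Ideal (𝓞 K)) → ψ' (x + y) = ψ' x) → ∀ s : ℝ, 1 < s →
      oSum ψ' s = (∑ q : 𝓞 K ⧸ (K0 : Ideal (𝓞 K)), ψ' q.out) * (lsum K0 s : ℂ) +
        ∑ q : 𝓞 K ⧸ (K0 : Ideal (𝓞 K)), ψ' q.out * (D q s : ℂ) := by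
    intro ψ' hb' hper' s hs
    have hsum := summable_oSum hb' hs
    have hsp := (cosetEquiv K0).symm.summable_iff.mpr hsum
    rw [oSum, ← (cosetEquiv K0).symm.tsum_eq,
      Summable.tsum_prod (f := fun c => (gfun s (emb ((cosetEquiv K0).symm c)) : ℂ) *
        ψ' ((cosetEquiv K0).symm c)) hsp, tsum_fintype, Finset.sum_mul, ← Finset.sum_add_distrib]
    refine Finset.sum_congr rfl fun q _ => ?_
    have hg : Summable fun y : (K0 : Ideal (𝓞 K)) => gfun s (emb ((y : 𝓞 K) + q.out)) := by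
      have := ((cosetEquiv K0).symm.summable_iff.mpr (summable_gfun_emb (K := K) hs)).prod_factor q
      exact this.congr fun y => by rw [add_comm]; rfl
    have hl : Summable fun y : (K0 : Ideal (𝓞 K)) => gfun s (emb (y : 𝓞 K)) := summable_lsum K0 hs
    rw [← mul_add, ← Complex.ofReal_add, lsum, ← hl.tsum_add (hg.sub hl), Complex.ofReal_tsum,
      ← tsum_mul_left]
    refine tsum_congr fun y => ?_
    have e : (cosetEquiv K0).symm (q, y) = q.out + (y : 𝓞 K) := rfl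
    rw [e, hper' _ _ y.2, add_sub_cancel, add_comm (y : 𝓞 K), mul_comm]
  have href : ∀ s : ℝ, (refSum K s : ℂ) = oSum (fun _ : 𝓞 K => (1 : ℂ)) s := fun s => by
    simp [refSum, oSum, Complex.ofReal_tsum]
  refine ⟨κ, (∑ q : 𝓞 K ⧸ (K0 : Ideal (𝓞 K)), ψ q.out * (d q : ℂ)) -
    κ * ∑ q : 𝓞 K ⧸ (K0 : Ideal (𝓞 K)), (d q : ℂ), ?_⟩
  have hD : ∀ q, Tendsto (fun s => (D q s : ℂ)) (𝓝[>] 1) (𝓝 (d q : ℂ)) := fun q =>
    (Complex.continuous_ofReal.tendsto _).comp (hd q)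
  refine Tendsto.congr' ?_ ((tendsto_finsetSum Finset.univ fun q _ => (hD q).const_mul _).sub
    ((tendsto_finsetSum Finset.univ fun q _ => hD q).const_mul κ))
  filter_upwards [self_mem_nhdsWithin] with s hs
  rw [key ψ hb hper s hs, href, key (fun _ => 1) (fun _ => by simp) (fun _ _ _ => rfl) s hs, hκ]
  simp only [Finset.sum_const, Finset.card_univ, nsmul_eq_mul, mul_one, one_mul, ← hn]
  field_simp
  ring

/-- Sums over principal ideals divisible by `J`, as sums over the lattice `J`. -/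
theorem lattice_sum_eq (J : (Ideal (𝓞 K))⁰) {φ : Ideal (𝓞 K) → ℂ} (hφ : ∀ I, ‖φ I‖ ≤ 1) {s : ℝ}
    (hs : 1 < s) :
    ∑' x : (J : Ideal (𝓞 K)), (gfun s (emb (x : 𝓞 K)) : ℂ) * φ (Ideal.span {(x : 𝓞 K)}) =
      (torsionOrder K : ℂ) * ∑' I : {I : (Ideal (𝓞 K))⁰ //
        (J : Ideal (𝓞 K)) ∣ I ∧ Submodule.IsPrincipal (I : Ideal (𝓞 K))},
          φ (I.1 : Ideal (𝓞 K)) * (nrm s I.1 : ℂ) := by
  let w : (Fin (Units.rank K) → Fin 2) → idealSet K J → ℝ :=
    fun k a => weight (epsU k • (a : mixedSpace K))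
  let F : idealSet K J → ℂ := fun a =>
    φ ((idealSetPrincipalEquiv J a).1.1 : Ideal (𝓞 K)) *
        (nrm s (idealSetPrincipalEquiv J a).1.1 : ℂ)
  let h : ↥(J : Ideal (𝓞 K)) → ℂ := fun x =>
    (gfun s (emb (x : 𝓞 K)) : ℂ) * φ (Ideal.span {(x : 𝓞 K)})
  have hnorm : ∀ x, ‖h x‖ ≤ gfun s (emb (x : 𝓞 K)) := fun x => by
    rw [norm_mul, Complex.norm_real, Real.norm_eq_abs, abs_of_nonneg (gfun_nonneg _ _)]
    exact mul_le_of_le_one_right (gfun_nonneg _ _) (hφ _)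
  have hg : ∀ z, h (pairMap J z) = (w z.1 z.2 : ℂ) * F z.2 := fun z => by
    have hspan : Ideal.span {(pairMap J z : 𝓞 K)} =
        ((idealSetPrincipalEquiv J z.2).1.1 : Ideal (𝓞 K)) := by
      have e : ((idealSetPrincipalEquiv J z.2).1.1 : Ideal (𝓞 K)) =
          Ideal.span {(preimageOfMemIntegerSet (idealSetMap K J z.2) : 𝓞 K)} := rfl
      rw [e]
      exact Ideal.span_singleton_mul_left_unit (Units.isUnit _) _
    show (gfun s (emb (pairMap J z : 𝓞 K)) : ℂ) * φ _ = _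
    rw [gfun_pair, hspan, Complex.ofReal_mul]
    ring
  have hsupp : Function.support h ⊆ Set.range (pairMap J) := fun x hx =>
    support_subset_range J s fun h0 => hx (by simp [h, h0])
  have hsum : Summable fun z : (Fin (Units.rank K) → Fin 2) × idealSet K J =>
      (w z.1 z.2 : ℂ) * F z.2 :=
    Summable.congr (Summable.of_norm_bounded (summable_pair J hs) fun z => hnorm _) hg
  have hfac : ∀ k, Summable fun a => (w k a : ℂ) * F a := fun k => hsum.prod_factor k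
  have h1 : ∑' x, h x = ∑ k, ∑' a, (w k a : ℂ) * F a := by
    rw [← Function.Injective.tsum_eq (pairMap_injective J) hsupp, tsum_congr hg,
      hsum.tsum_prod, tsum_fintype]
  have h2 : ∑ k, ∑' a, (w k a : ℂ) * F a = ∑' a, F a := by
    rw [← Summable.tsum_finsetSum (fun k _ => hfac k)]
    refine tsum_congr fun a => ?_
    rw [← Finset.sum_mul, ← Complex.ofReal_sum, show ∑ k, w k a = 1 from sum_weight_eq_one a.2.1,
      Complex.ofReal_one, one_mul]
  let G : {I : (Ideal (𝓞 K))⁰ //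
      (J : Ideal (𝓞 K)) ∣ I ∧ Submodule.IsPrincipal (I : Ideal (𝓞 K))} × torsion K → ℂ :=
    fun z => φ (z.1.1 : Ideal (𝓞 K)) * (nrm s z.1.1 : ℂ)
  have hF : Summable F := Summable.of_norm_bounded (summable_idealSet J hs) fun a => by
    rw [norm_mul, Complex.norm_real, Real.norm_eq_abs, abs_of_nonneg (nrm_nonneg _ _)]
    exact mul_le_of_le_one_left (nrm_nonneg _ _) (hφ _)
  have hG : Summable G := (idealSetPrincipalEquiv J).summable_iff.mp hF
  have h3 : ∑' a, F a = ∑' z, G z := (idealSetPrincipalEquiv J).tsum_eq G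
  show ∑' x, h x = _
  rw [h1, h2, h3, hG.tsum_prod, ← tsum_mul_left]
  exact tsum_congr fun I => by simp [G, torsionOrder]

theorem norm_congr (n : ℕ) (x y : 𝓞 K) :
    (Algebra.norm ℤ (x + (n : 𝓞 K) * y) : ZMod n) = (Algebra.norm ℤ x : ZMod n) := by
  have b := RingOfIntegers.basis K
  rw [Algebra.norm_eq_matrix_det b, Algebra.norm_eq_matrix_det b, map_add, map_mul, map_natCast,
    Int.cast_det, Int.cast_det]
  congr 1
  ext i j
  simp [Matrix.mul_apply, Matrix.natCast_apply]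

/-- The `L`-series of `χ ∘ N`. -/
def normL (K : Type*) [Field K] [NumberField K] {m : ℕ} (χ : DirichletCharacter ℂ m) (s : ℝ) : ℂ :=
  ∑' I : (Ideal (𝓞 K))⁰, χ (Ideal.absNorm (I : Ideal (𝓞 K)) : ZMod m) * (nrm s I : ℂ)

theorem summable_normL {m : ℕ} (χ : DirichletCharacter ℂ m) {s : ℝ} (hs : 1 < s) :
    Summable fun I : (Ideal (𝓞 K))⁰ =>
      χ (Ideal.absNorm (I : Ideal (𝓞 K)) : ZMod m) * (nrm s I : ℂ) :=
  Summable.of_norm_bounded (summable_nrm hs) fun I => by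
    rw [norm_mul, Complex.norm_real, Real.norm_eq_abs, abs_of_nonneg (nrm_nonneg _ _)]
    exact mul_le_of_le_one_left (nrm_nonneg _ _) (DirichletCharacter.norm_le_one χ _)

theorem char_natAbs {m : ℕ} {χ : DirichletCharacter ℂ m} (hχ : χ (-1) = 1) (a : ℤ) :
    χ (a.natAbs : ZMod m) = χ (a : ZMod m) := by
  rcases Int.natAbs_eq a with h | h
  · conv_rhs => rw [h, Int.cast_natCast]
  · conv_rhs => rw [h, Int.cast_neg, Int.cast_natCast, neg_eq_neg_one_mul, map_mul, hχ, one_mul]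

/-- One class: a multiple of the reference sum up to a convergent function. -/
theorem tendsto_classPart {m : ℕ} [NeZero m] {χ : DirichletCharacter ℂ m} (hχ : χ (-1) = 1)
    (J : (Ideal (𝓞 K))⁰) :
    ∃ κ l : ℂ, Tendsto (fun s : ℝ => (∑' I : {I : (Ideal (𝓞 K))⁰ //
        (J : Ideal (𝓞 K)) ∣ I ∧ Submodule.IsPrincipal (I : Ideal (𝓞 K))},
          χ ((Ideal.absNorm (I.1 : Ideal (𝓞 K)) / Ideal.absNorm (J : Ideal (𝓞 K)) : ℕ) : ZMod m) *
            (nrm s I.1 : ℂ)) - κ * (refSum K s : ℂ)) (𝓝[>] 1) (𝓝 l) := by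
  set NJ := Ideal.absNorm (J : Ideal (𝓞 K)) with hNJ
  have hNJ0 : NJ ≠ 0 := Ideal.absNorm_ne_zero_of_nonZeroDivisors J
  let φ : Ideal (𝓞 K) → ℂ := fun I => χ ((Ideal.absNorm I / NJ : ℕ) : ZMod m)
  have hφ : ∀ I, ‖φ I‖ ≤ 1 := fun I => DirichletCharacter.norm_le_one χ _
  let ψ : 𝓞 K → ℂ := fun x => if x ∈ (J : Ideal (𝓞 K)) then φ (Ideal.span {x}) else 0
  have hψb : ∀ x, ‖ψ x‖ ≤ 1 := fun x => by
    show ‖ite _ _ _‖ ≤ 1
    split_ifs
    · exact hφ _
    · simp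
  let K0 : (Ideal (𝓞 K))⁰ := ⟨Ideal.span {((m * NJ : ℕ) : 𝓞 K)} * J,
    mem_nonZeroDivisors_of_ne_zero (mul_ne_zero (by
      rw [Ne, Submodule.zero_eq_bot, Ideal.span_singleton_eq_bot, Nat.cast_eq_zero]
      exact mul_ne_zero (NeZero.ne m) hNJ0) (nonZeroDivisors.ne_zero J.2))⟩
  have hper : ∀ x y : 𝓞 K, y ∈ (K0 : Ideal (𝓞 K)) → ψ (x + y) = ψ x := by
    intro x y hy
    have hy : y ∈ Ideal.span {((m * NJ : ℕ) : 𝓞 K)} * (J : Ideal (𝓞 K)) := hy
    have hyJ : y ∈ (J : Ideal (𝓞 K)) := Ideal.mul_le_right hy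
    have hys : y ∈ Ideal.span {((m * NJ : ℕ) : 𝓞 K)} := Ideal.mul_le_left hy
    obtain ⟨z, rfl⟩ := Ideal.mem_span_singleton.mp hys
    by_cases hx : x ∈ (J : Ideal (𝓞 K))
    · have hxy := Ideal.add_mem _ hx hyJ
      simp only [ψ, φ, if_pos hx, if_pos hxy, Ideal.absNorm_span_singleton]
      have hdvd : ∀ u ∈ (J : Ideal (𝓞 K)), (NJ : ℤ) ∣ Algebra.norm ℤ u := fun u hu => by
        rw [Int.natCast_dvd, ← Ideal.absNorm_span_singleton]
        exact Ideal.absNorm_dvd_absNorm_of_le (Ideal.span_le.mpr (Set.singleton_subset_iff.mpr hu))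
      obtain ⟨a, ha⟩ := hdvd x hx
      obtain ⟨b, hb⟩ := hdvd _ hxy
      have hcong : (b : ZMod m) = (a : ZMod m) := by
        have h := norm_congr (m * NJ) x z
        rw [ha, hb, ZMod.intCast_eq_intCast_iff_dvd_sub, ← mul_sub, Nat.cast_mul, mul_comm (m : ℤ),
          mul_dvd_mul_iff_left (Nat.cast_ne_zero.mpr hNJ0)] at h
        rwa [ZMod.intCast_eq_intCast_iff_dvd_sub]
      rw [ha, hb, Int.natAbs_mul, Int.natAbs_mul, Int.natAbs_natCast,
        Nat.mul_div_cancel_left _ (Nat.pos_of_ne_zero hNJ0),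
        Nat.mul_div_cancel_left _ (Nat.pos_of_ne_zero hNJ0), char_natAbs hχ, char_natAbs hχ, hcong]
    · have hxy : x + ((m * NJ : ℕ) : 𝓞 K) * z ∉ (J : Ideal (𝓞 K)) := fun h =>
        hx ((Submodule.add_mem_iff_left _ hyJ).mp h)
      simp only [ψ, if_neg hx, if_neg hxy]
  obtain ⟨κ, l, hl⟩ := tendsto_oSum K0 hψb hper
  have hw : (torsionOrder K : ℂ) ≠ 0 := Nat.cast_ne_zero.mpr (torsionOrder_pos K).ne'
  refine ⟨κ / torsionOrder K, l / torsionOrder K, (hl.div_const _).congr' ?_⟩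
  filter_upwards [self_mem_nhdsWithin] with s hs
  have h1 : oSum ψ s =
      ∑' x : (J : Ideal (𝓞 K)), (gfun s (emb (x : 𝓞 K)) : ℂ) * φ (Ideal.span {(x : 𝓞 K)}) := by
    rw [oSum, ← tsum_subtype_eq_of_support_subset (s := ((J : Ideal (𝓞 K)) : Set (𝓞 K))) ?_]
    · exact tsum_congr fun x => by simp [ψ]
    · intro x hx
      by_contra h
      exact hx (by simp [ψ, SetLike.mem_coe.not.mp h])
  rw [h1, lattice_sum_eq J hφ hs]
  simp only [φ]
  field_simp

/-- `(s - 1)` times the reference sum is eventually bounded. -/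
theorem refSum_mul_bounded : ∃ B : ℝ, ∀ᶠ s in 𝓝[>] (1 : ℝ), |(s - 1) * refSum K s| ≤ B := by
  refine ⟨torsionOrder K * (dedekindZeta_residue K + 1), ?_⟩
  filter_upwards [self_mem_nhdsWithin,
    (tendsto_zetaR (K := K)).eventually (Iic_mem_nhds (lt_add_one _))] with s (hs : 1 < s) hζ
  let e1 : ((1 : (Ideal (𝓞 K))⁰) : Ideal (𝓞 K)) ≃ 𝓞 K := Equiv.subtypeUnivEquiv fun x => by simp
  have h : lsum (1 : (Ideal (𝓞 K))⁰) s = refSum K s := e1.tsum_eq fun x => gfun s (emb x)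
  have h0 : 0 ≤ refSum K s := tsum_nonneg fun _ => gfun_nonneg _ _
  rw [abs_of_nonneg (mul_nonneg (by linarith) h0), ← h, lsum_eq _ hs, mul_left_comm]
  refine mul_le_mul_of_nonneg_left (le_trans (mul_le_mul_of_nonneg_left ?_ (by linarith)) hζ)
    (Nat.cast_nonneg _)
  exact Summable.tsum_subtype_le (nrm s) _ (fun _ => nrm_nonneg _ _) (summable_nrm hs)

end Fermat.Agent.WeightOneGalois
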