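import Mathlib.Analysis.SpecialFunctions.Pow.Deriv
import Fermat.Agent.ExtVan.Euler
import Fermat.Agent.WeightOneGalois.Chebotarev.LSeries

/-!
# `∑ χ(N I) N I ^ (-s) - c refSum(s)` has a limit at `1+`

Sums the classes of `Chebotarev/LSeries`; the limit bounds the prime sums of even characters from
above in the one-sided Chebotarev theorem.
-/

noncomputable section

namespace Fermat.Agent.WeightOneGalois

open NumberField Filter Topology
open ExtVan
open scoped nonZeroDivisors Classical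

variable {K : Type*} [Field K] [NumberField K]

/-- `normL` as a finite combination of sums over ideal classes. -/
theorem normL_decomp {m : ℕ} [NeZero m] {χ : DirichletCharacter ℂ m} (hχ : χ (-1) = 1) :
    ∃ (κ l : ClassGroup (𝓞 K) → ℂ) (N : ClassGroup (𝓞 K) → ℝ) (R : ClassGroup (𝓞 K) → ℝ → ℂ),
      (∀ C, 0 < N C) ∧ (∀ C, Tendsto (R C) (𝓝[>] 1) (𝓝 (l C))) ∧
      ∀ s : ℝ, 1 < s →
        normL K χ s = ∑ C, ((N C ^ s : ℝ) : ℂ) * (κ C * (refSum K s : ℂ) + R C s) := by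
  choose J hJ using fun C : ClassGroup (𝓞 K) => ClassGroup.mk0_surjective C⁻¹
  choose κ l hl using fun C : ClassGroup (𝓞 K) => tendsto_classPart (K := K) hχ (J C)
  refine ⟨κ, l, fun C => (Ideal.absNorm (J C : Ideal (𝓞 K)) : ℝ), fun C s =>
    (∑' I : {I : (Ideal (𝓞 K))⁰ //
        (J C : Ideal (𝓞 K)) ∣ I ∧ Submodule.IsPrincipal (I : Ideal (𝓞 K))},
      χ ((Ideal.absNorm (I.1 : Ideal (𝓞 K)) / Ideal.absNorm (J C : Ideal (𝓞 K)) : ℕ) : ZMod m) *
        (nrm s I.1 : ℂ)) - κ C * (refSum K s : ℂ),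
    fun C => Nat.cast_pos.mpr (Ideal.absNorm_pos_of_nonZeroDivisors _), hl, fun s hs => ?_⟩
  have h := summable_normL (K := K) χ hs
  let f : (Ideal (𝓞 K))⁰ → ℂ := fun I =>
    χ (Ideal.absNorm (I : Ideal (𝓞 K)) : ZMod m) * (nrm s I : ℂ)
  show ∑' I, f I = _
  rw [← (Equiv.sigmaFiberEquiv (ClassGroup.mk0 (R := 𝓞 K))).tsum_eq,
    Summable.tsum_sigma (f := fun c => f (Equiv.sigmaFiberEquiv (ClassGroup.mk0 (R := 𝓞 K)) c))
      ((Equiv.sigmaFiberEquiv _).summable_iff.mpr h), tsum_fintype]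
  refine Finset.sum_congr rfl fun C _ => ?_
  rw [add_sub_cancel]
  show ∑' I : {I : (Ideal (𝓞 K))⁰ // ClassGroup.mk0 I = C}, f I.1 = _
  let e : {I : (Ideal (𝓞 K))⁰ // ClassGroup.mk0 I = C} ≃ {I : (Ideal (𝓞 K))⁰ //
      (J C : Ideal (𝓞 K)) ∣ I ∧ Submodule.IsPrincipal (I : Ideal (𝓞 K))} :=
    ((Equiv.dvd (J C)).subtypeEquiv (q := fun I => Submodule.IsPrincipal (I.1 : Ideal (𝓞 K)))
      fun I => by
        rw [← ClassGroup.mk0_eq_one_iff (SetLike.coe_mem _)]
        simp_rw [Equiv.dvd_apply, Subtype.coe_eta, _root_.map_mul, hJ, inv_mul_eq_one,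
            eq_comm]).trans
      ((Equiv.subtypeSubtypeEquivSubtypeInter (fun I : (Ideal (𝓞 K))⁰ ↦ J C ∣ I)
        (fun I => Submodule.IsPrincipal (I : Ideal (𝓞 K)))).trans
        (Equiv.subtypeEquivRight fun I => by rw [nonZeroDivisors_dvd_iff_dvd_coe]))
  rw [← tsum_mul_left, ← e.tsum_eq]
  refine tsum_congr fun I => ?_
  have he : ((e I).1 : Ideal (𝓞 K)) = (J C : Ideal (𝓞 K)) * (I.1 : Ideal (𝓞 K)) := rfl
  have hN0 : Ideal.absNorm (J C : Ideal (𝓞 K)) ≠ 0 :=
    Ideal.absNorm_ne_zero_of_nonZeroDivisors _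
  have hJ0 : (0 : ℝ) < (Ideal.absNorm (J C : Ideal (𝓞 K)) : ℝ) :=
    Nat.cast_pos.mpr (Nat.pos_of_ne_zero hN0)
  simp only [f, nrm, he, map_mul, Nat.mul_div_cancel_left _ (Nat.pos_of_ne_zero hN0), Nat.cast_mul,
    Real.mul_rpow hJ0.le (Nat.cast_nonneg _), Real.rpow_neg hJ0.le, Complex.ofReal_mul,
    Complex.ofReal_inv]
  field_simp [Complex.ofReal_ne_zero.mpr (Real.rpow_pos_of_pos hJ0 s).ne']

theorem normL_one (s : ℝ) :
    normL K (1 : DirichletCharacter ℂ 1) s = (zetaR K s : ℂ) := by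
  rw [normL, zetaR, Complex.ofReal_tsum]
  refine tsum_congr fun I => ?_
  rw [Subsingleton.elim ((Ideal.absNorm (I : Ideal (𝓞 K)) : ℕ) : ZMod 1) 1, map_one, one_mul]

theorem tendsto_sub_one : Tendsto (fun s : ℝ => s - 1) (𝓝[>] 1) (𝓝 0) :=
  ((continuous_sub_right (1 : ℝ)).tendsto' 1 0 (sub_self 1)).mono_left nhdsWithin_le_nhds

/-- `(s - 1)` times the reference sum converges to a non-zero number. -/
theorem exists_tendsto_refSum : ∃ R : ℝ, R ≠ 0 ∧
    Tendsto (fun s : ℝ => (s - 1) * refSum K s) (𝓝[>] 1) (𝓝 R) := by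
  obtain ⟨κ, l, N, R', hN, hR', hdec⟩ :=
    normL_decomp (K := K) (m := 1) (χ := 1) (by rw [Subsingleton.elim (-1 : ZMod 1) 1, map_one])
  obtain ⟨B, hB⟩ := refSum_mul_bounded (K := K)
  set S0 : ℂ := ∑ C, (N C : ℂ) * κ C with hS0
  have hNc : ∀ C, Tendsto (fun s : ℝ => ((N C ^ s : ℝ) : ℂ)) (𝓝[>] 1) (𝓝 (N C : ℂ)) := fun C => by
    have h1 := ((Real.continuousAt_const_rpow (hN C).ne').tendsto (x := (1 : ℝ))).mono_left
      (nhdsWithin_le_nhds (s := Set.Ioi (1 : ℝ)))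
    rw [Real.rpow_one] at h1
    exact (Complex.continuous_ofReal.tendsto _).comp h1
  have hz : Tendsto (fun s : ℝ => (((s - 1) * zetaR K s : ℝ) : ℂ)) (𝓝[>] 1)
      (𝓝 (dedekindZeta_residue K : ℂ)) :=
    (Complex.continuous_ofReal.tendsto _).comp tendsto_zetaR
  have hc0 : Tendsto (fun s : ℝ => ((s - 1 : ℝ) : ℂ)) (𝓝[>] 1) (𝓝 0) := by
    simpa [Function.comp_def] using (Complex.continuous_ofReal.tendsto 0).comp (tendsto_sub_one)
  have hmain : Tendsto (fun s : ℝ => S0 * (((s - 1) * refSum K s : ℝ) : ℂ)) (𝓝[>] 1)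
      (𝓝 (dedekindZeta_residue K : ℂ)) := by
    have hA : Tendsto (fun s : ℝ => ((∑ C, ((N C ^ s : ℝ) : ℂ) * κ C) - S0) *
        (((s - 1) * refSum K s : ℝ) : ℂ)) (𝓝[>] 1) (𝓝 0) := by
      have h1 : Tendsto (fun s : ℝ => (∑ C, ((N C ^ s : ℝ) : ℂ) * κ C) - S0) (𝓝[>] 1) (𝓝 0) := by
        have := ((tendsto_finsetSum Finset.univ fun C _ => (hNc C).mul_const (κ C))).sub_const S0
        rwa [hS0, sub_self] at this
      refine squeeze_zero_norm' ?_ (by simpa using (h1.norm.mul_const B))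
      filter_upwards [hB] with s hs
      rw [norm_mul, Complex.norm_real, Real.norm_eq_abs]
      exact mul_le_mul_of_nonneg_left hs (norm_nonneg _)
    have hC : Tendsto (fun s : ℝ => ∑ C, ((N C ^ s : ℝ) : ℂ) * (((s - 1 : ℝ) : ℂ) * R' C s))
        (𝓝[>] 1) (𝓝 0) := by
      simpa using tendsto_finsetSum Finset.univ fun C _ => (hNc C).mul (hc0.mul (hR' C))
    have := (hz.sub hA).sub hC
    rw [sub_zero, sub_zero] at this
    refine this.congr' ?_
    filter_upwards [self_mem_nhdsWithin] with s hs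
    have h := hdec s hs
    rw [normL_one] at h
    rw [Complex.ofReal_mul, Complex.ofReal_mul, h, Finset.mul_sum, sub_mul, Finset.sum_mul,
      ← sub_add, ← Finset.sum_sub_distrib, add_comm, add_sub_assoc, ← Finset.sum_sub_distrib,
      add_eq_left]
    exact Finset.sum_eq_zero fun C _ => by ring
  have hS : S0 ≠ 0 := fun h => by
    simp only [h, zero_mul] at hmain
    exact (dedekindZeta_residue_pos K).ne'
      (by exact_mod_cast (tendsto_nhds_unique tendsto_const_nhds hmain).symm)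
  have h2 : Tendsto (fun s : ℝ => (((s - 1) * refSum K s : ℝ) : ℂ)) (𝓝[>] 1)
      (𝓝 ((dedekindZeta_residue K : ℂ) / S0)) := by
    refine (hmain.div_const S0).congr fun s => ?_
    rw [mul_div_cancel_left₀ _ hS]
  refine ⟨((dedekindZeta_residue K : ℂ) / S0).re, fun hre => ?_, ?_⟩
  · have him : ((dedekindZeta_residue K : ℂ) / S0).im = 0 := by
      refine tendsto_nhds_unique ((Complex.continuous_im.tendsto _).comp h2) ?_
      simp [Function.comp_def]
    exact div_ne_zero (Complex.ofReal_ne_zero.mpr (dedekindZeta_residue_pos K).ne') hS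
      (Complex.ext hre him)
  · simpa [Function.comp_def] using (Complex.continuous_re.tendsto _).comp h2

/-- The behaviour of the `L`-series at `1+`. -/
theorem tendsto_normL {m : ℕ} [NeZero m] {χ : DirichletCharacter ℂ m} (hχ : χ (-1) = 1) :
    ∃ c l : ℂ, Tendsto (fun s : ℝ => normL K χ s - c * (refSum K s : ℂ)) (𝓝[>] 1) (𝓝 l) := by
  obtain ⟨κ, l, N, R', hN, hR', hdec⟩ := normL_decomp (K := K) hχ
  obtain ⟨R, -, hR⟩ := exists_tendsto_refSum (K := K)
  refine ⟨∑ C, (N C : ℂ) * κ C,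
    ∑ C, ((N C : ℂ) * l C + κ C * ((N C * Real.log (N C) : ℝ) : ℂ) * (R : ℂ)), ?_⟩
  have hq : ∀ C, Tendsto (fun s : ℝ => (((N C ^ s - N C) * refSum K s : ℝ) : ℂ)) (𝓝[>] 1)
      (𝓝 ((N C * Real.log (N C) * R : ℝ) : ℂ)) := fun C => by
    refine (Complex.continuous_ofReal.tendsto _).comp ?_
    have hd : HasDerivAt (fun s : ℝ => N C ^ s) (N C * Real.log (N C)) 1 := by
      simpa using (Real.hasStrictDerivAt_const_rpow (hN C) 1).hasDerivAt
    have hslope := (hasDerivAt_iff_tendsto_slope.mp hd).mono_left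
      (nhdsWithin_mono (1 : ℝ) fun y (hy : y ∈ Set.Ioi 1) => ne_of_gt (Set.mem_Ioi.mp hy))
    refine (hslope.mul hR).congr' ?_
    filter_upwards [self_mem_nhdsWithin] with s hs
    have hs0 : s - 1 ≠ 0 := (sub_pos.mpr (Set.mem_Ioi.mp hs)).ne'
    rw [slope_def_field, Real.rpow_one]
    field_simp
  have hNc : ∀ C, Tendsto (fun s : ℝ => ((N C ^ s : ℝ) : ℂ)) (𝓝[>] 1) (𝓝 (N C : ℂ)) := fun C => by
    have h1 := ((Real.continuousAt_const_rpow (hN C).ne').tendsto (x := (1 : ℝ))).mono_left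
      (nhdsWithin_le_nhds (s := Set.Ioi (1 : ℝ)))
    rw [Real.rpow_one] at h1
    exact (Complex.continuous_ofReal.tendsto _).comp h1
  have := tendsto_finsetSum Finset.univ fun C _ => ((hNc C).mul (hR' C)).add
      ((hq C).const_mul (κ C))
  refine (this.congr' ?_).trans (le_of_eq ?_)
  · filter_upwards [self_mem_nhdsWithin] with s hs
    rw [hdec s hs, Finset.sum_mul, ← Finset.sum_sub_distrib]
    refine Finset.sum_congr rfl fun C _ => ?_
    push_cast
    ring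
  · congr 1
    refine Finset.sum_congr rfl fun C _ => ?_
    push_cast
    ring

end Fermat.Agent.WeightOneGalois
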