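import Fermat.Agent.Gal.Density
import Fermat.Agent.WeightOneGalois.Chebotarev.Limit

/-!
# `log |L(s, χ ∘ N)|` and the real prime sum of `χ`

Only real parts are used: `‖(1 - x)⁻¹‖` is `exp (re x)` up to `exp (2 ‖x‖ ^ 2)`. The comparison
feeds the one-sided Chebotarev theorem in `Chebotarev/Cross`.
-/

noncomputable section

namespace Fermat.Agent.WeightOneGalois

open NumberField Filter Topology IsDedekindDomain
open ExtVan (primeNZ xP nrm nrmHom nrm_nonneg xP_pos xP_le_half summable_nrm zetaR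
  exp_sum_le_zetaR tendsto_prod_euler sum_xP_sq_le exists_nondegreeOne_bound)
open scoped nonZeroDivisors Classical

/-- The prime sum `∑ u_ℓ ℓ ^ (-s)` of the weights `u`. -/
def pSum (u : Nat.Primes → ℝ) (s : ℝ) : ℝ := ∑' ℓ : Nat.Primes, u ℓ * ((ℓ : ℕ) : ℝ) ^ (-s)

/-- `log (1 / (s - 1))`. -/
def logPole (s : ℝ) : ℝ := Real.log (s - 1)⁻¹

theorem exp_re_le_norm_inv (x : ℂ) (hx : ‖x‖ ≤ 1 / 2) :
    Real.exp (x.re - 2 * ‖x‖ ^ 2) ≤ ‖(1 - x)⁻¹‖ ∧
      ‖(1 - x)⁻¹‖ ≤ Real.exp (x.re + 2 * ‖x‖ ^ 2) := by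
  have hsq : ∀ y : ℂ, ‖1 + y‖ ≤ Real.exp (y.re + ‖y‖ ^ 2 / 2) := fun y => by
    refine (pow_le_pow_iff_left₀ (norm_nonneg _) (Real.exp_pos _).le two_ne_zero).mp ?_
    rw [← Real.exp_nat_mul, Complex.sq_norm, Complex.sq_norm]
    refine le_trans (le_of_eq ?_) (Real.add_one_le_exp _)
    simp [Complex.normSq_apply]
    ring
  have hne : (1 : ℂ) - x ≠ 0 := fun h => by
    rw [sub_eq_zero] at h; rw [← h, norm_one] at hx; norm_num at hx
  have hpos : 0 < ‖1 - x‖ := norm_pos_iff.mpr hne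
  have hx2 : 0 ≤ ‖x‖ ^ 2 := sq_nonneg _
  constructor
  · rw [norm_inv, le_inv_comm₀ (Real.exp_pos _) hpos, ← Real.exp_neg, sub_eq_add_neg (1 : ℂ)]
    refine (hsq (-x)).trans (Real.exp_le_exp.mpr ?_)
    simp only [Complex.neg_re, norm_neg]
    linarith
  · have hq : ‖x‖ ^ 2 ≤ 1 / 4 := by nlinarith [norm_nonneg x]
    have h1 : 1 - ‖x‖ ^ 2 ≤ ‖1 - x‖ * ‖1 + x‖ := by
      rw [← norm_mul, show (1 - x) * (1 + x) = 1 - x ^ 2 by ring]
      have := norm_sub_norm_le (1 : ℂ) (x ^ 2)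
      simp only [norm_one, norm_pow] at this
      exact this
    have h2 : ‖(1 - x)⁻¹‖ ≤ ‖1 + x‖ * (1 - ‖x‖ ^ 2)⁻¹ := by
      rw [norm_inv, ← div_eq_mul_inv, le_div_iff₀ (by linarith), inv_mul_le_iff₀ hpos]
      exact h1
    refine h2.trans ((mul_le_mul (hsq x) (Gal.inv_one_sub_le_exp hx2 (by linarith))
      (inv_nonneg.mpr (by linarith)) (Real.exp_pos _).le).trans ?_)
    rw [← Real.exp_add]
    exact Real.exp_le_exp.mpr (by nlinarith)

section

variable (K : Type) [Field K] [NumberField K] {m : ℕ} (χ : DirichletCharacter ℂ m)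

/-- The summand of the logarithmic Euler product. -/
def eulerTerm (s : ℝ) (P : HeightOneSpectrum (𝓞 K)) : ℂ :=
  χ (Ideal.absNorm P.asIdeal : ZMod m) * (xP s P : ℂ)

/-- The weights of the prime sum of `χ`. -/
def charWeight (ℓ : Nat.Primes) : ℝ := (Gal.normCount K ℓ : ℝ) * (χ ((ℓ : ℕ) : ZMod m)).re

variable {K} {χ}

theorem norm_eulerTerm_le (s : ℝ) (P : HeightOneSpectrum (𝓞 K)) :
    ‖eulerTerm K χ s P‖ ≤ xP s P := by
  rw [eulerTerm, norm_mul, Complex.norm_real, Real.norm_eq_abs, abs_of_pos (xP_pos s P)]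
  exact mul_le_of_le_one_left (xP_pos s P).le (DirichletCharacter.norm_le_one χ _)

theorem summable_xP {s : ℝ} (hs : 1 < s) :
    Summable fun P : HeightOneSpectrum (𝓞 K) => xP s P :=
  summable_of_sum_le (c := zetaR K s) (fun P => (xP_pos s P).le) fun T => by
    linarith [Real.add_one_le_exp (∑ P ∈ T, xP s P), exp_sum_le_zetaR hs T]

theorem summable_eulerTerm_re {s : ℝ} (hs : 1 < s) :
    Summable fun P : HeightOneSpectrum (𝓞 K) => (eulerTerm K χ s P).re :=
  Summable.of_norm_bounded (summable_xP hs) fun P =>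
    (Complex.abs_re_le_norm _).trans (norm_eulerTerm_le s P)

/-- `‖L(s)‖` is the exponential of the prime sum up to a bounded error. -/
theorem exists_norm_normL_bound : ∃ C : ℝ, ∀ s : ℝ, 1 < s →
    Real.exp (pSum (charWeight K χ) s - C) ≤ ‖normL K χ s‖ ∧
      ‖normL K χ s‖ ≤ Real.exp (pSum (charWeight K χ) s + C) := by
  obtain ⟨D, hD⟩ := exists_nondegreeOne_bound (K := K)
  refine ⟨D + 2 * zetaR K 2, fun s hs => ?_⟩
  let f : (Ideal (𝓞 K))⁰ →* ℂ :=
    { toFun := fun I => χ (Ideal.absNorm (I : Ideal (𝓞 K)) : ZMod m) * (nrm s I : ℂ)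
      map_one' := by simp [nrm]
      map_mul' := fun I J => by
        have e : ((nrm s (I * J) : ℝ) : ℂ) = (nrm s I : ℂ) * (nrm s J : ℂ) :=
          map_mul (nrmHom (K := K) s) I J
        rw [e, Submonoid.coe_mul, map_mul, Nat.cast_mul, map_mul]
        ring }
  have hnf : ∀ I, ‖f I‖ ≤ nrm s I := fun I => by
    show ‖χ (Ideal.absNorm (I : Ideal (𝓞 K)) : ZMod m) * (nrm s I : ℂ)‖ ≤ _
    rw [norm_mul, Complex.norm_real, Real.norm_eq_abs, abs_of_nonneg (nrm_nonneg _ _)]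
    exact mul_le_of_le_one_left (nrm_nonneg _ _) (DirichletCharacter.norm_le_one χ _)
  have hfP : ∀ P, f (primeNZ P) = eulerTerm K χ s P := fun P => rfl
  have hhalf : ∀ P, ‖eulerTerm K χ s P‖ ≤ 1 / 2 := fun P =>
    (norm_eulerTerm_le s P).trans (xP_le_half hs.le P)
  have hlim : Tendsto (fun S : Finset (HeightOneSpectrum (𝓞 K)) =>
      ∏ P ∈ S, ‖(1 - eulerTerm K χ s P)⁻¹‖) atTop (𝓝 ‖normL K χ s‖) := by
    show Tendsto _ _ (𝓝 ‖∑' I, f I‖)
    have := ((continuous_norm.tendsto _).comp (tendsto_prod_euler (f := f)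
      (Summable.of_nonneg_of_le (fun I => norm_nonneg _) hnf (summable_nrm hs))
      fun P => by rw [hfP]; exact (hhalf P).trans_lt (by norm_num)))
    simpa only [Function.comp_def, norm_prod, hfP] using this
  have hsq : ∀ S : Finset (HeightOneSpectrum (𝓞 K)),
      ∑ P ∈ S, 2 * ‖eulerTerm K χ s P‖ ^ 2 ≤ 2 * zetaR K 2 := fun S => by
    rw [← Finset.mul_sum]
    refine mul_le_mul_of_nonneg_left ((Finset.sum_le_sum fun P _ => ?_).trans (sum_xP_sq_le hs S))
      two_pos.le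
    exact pow_le_pow_left₀ (norm_nonneg _) (norm_eulerTerm_le s P) 2
  set R := ∑' P, (eulerTerm K χ s P).re with hR
  have hRlim : Tendsto (fun S : Finset (HeightOneSpectrum (𝓞 K)) =>
      ∑ P ∈ S, (eulerTerm K χ s P).re) atTop (𝓝 R) := (summable_eulerTerm_re hs).hasSum
  have hlow : Real.exp (R - 2 * zetaR K 2) ≤ ‖normL K χ s‖ := by
    refine le_of_tendsto_of_tendsto'
      ((Real.continuous_exp.tendsto _).comp (hRlim.sub_const _)) hlim fun S => ?_
    calc Real.exp (∑ P ∈ S, (eulerTerm K χ s P).re - 2 * zetaR K 2)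
        ≤ Real.exp (∑ P ∈ S, ((eulerTerm K χ s P).re - 2 * ‖eulerTerm K χ s P‖ ^ 2)) := by
          rw [Real.exp_le_exp, Finset.sum_sub_distrib]; linarith [hsq S]
      _ ≤ _ := by
          rw [Real.exp_sum]
          exact Finset.prod_le_prod (fun P _ => (Real.exp_pos _).le) fun P _ =>
            (exp_re_le_norm_inv _ (hhalf P)).1
  have hupp : ‖normL K χ s‖ ≤ Real.exp (R + 2 * zetaR K 2) := by
    refine le_of_tendsto_of_tendsto' hlim
      ((Real.continuous_exp.tendsto _).comp (hRlim.add_const _)) fun S => ?_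
    calc ∏ P ∈ S, ‖(1 - eulerTerm K χ s P)⁻¹‖
        ≤ ∏ P ∈ S, Real.exp ((eulerTerm K χ s P).re + 2 * ‖eulerTerm K χ s P‖ ^ 2) :=
          Finset.prod_le_prod (fun P _ => norm_nonneg _) fun P _ =>
            (exp_re_le_norm_inv _ (hhalf P)).2
      _ ≤ _ := by
          simp only [Function.comp_apply]
          rw [← Real.exp_sum, Real.exp_le_exp, Finset.sum_add_distrib]
          linarith [hsq S]
  -- split off the primes of degree one
  set deg1 : Set (HeightOneSpectrum (𝓞 K)) := {P | (Ideal.absNorm P.asIdeal).Prime} with hdeg1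
  have hsplit : R = (∑' P : deg1, (eulerTerm K χ s P).re) +
      ∑' P : ↥deg1ᶜ, (eulerTerm K χ s P).re :=
    ((summable_eulerTerm_re hs).tsum_subtype_add_tsum_subtype_compl deg1).symm
  have hbad : |∑' P : ↥deg1ᶜ, (eulerTerm K χ s P).re| ≤ D := by
    rw [← Real.norm_eq_abs]
    refine tsum_of_norm_bounded (g := fun P : ↥deg1ᶜ => xP s P.1)
      ((summable_xP hs).subtype _).hasSum (fun P =>
      (Complex.abs_re_le_norm _).trans (norm_eulerTerm_le s _)) |>.trans ?_
    refine Real.tsum_le_of_sum_le (fun P => (xP_pos s P.1).le) fun U => ?_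
    refine le_of_eq_of_le ?_ (hD s hs (U.map (Function.Embedding.subtype _)) fun P hP => by
      obtain ⟨x, -, rfl⟩ := Finset.mem_map.mp hP; exact x.2)
    rw [Finset.sum_map]; rfl
  have hgood : (∑' P : deg1, (eulerTerm K χ s P).re) = pSum (charWeight K χ) s := by
    show (∑' P : {P : HeightOneSpectrum (𝓞 K) // (Ideal.absNorm P.asIdeal).Prime},
      (eulerTerm K χ s P.1).re) = _
    rw [← (Gal.primesOfPrimeNormEquiv (K := K)).symm.tsum_eq
      (fun P => (eulerTerm K χ s P.1).re)]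
    refine (Summable.tsum_sigma' (fun ℓ => ?_)
      ((((summable_eulerTerm_re hs).subtype deg1).comp_injective
        (Gal.primesOfPrimeNormEquiv (K := K)).symm.injective))).trans (tsum_congr fun ℓ => ?_)
    · have : Finite {I : Ideal (𝓞 K) // Ideal.absNorm I = (ℓ : ℕ)} :=
        (Ideal.finite_setOfPred_absNorm_eq (S := 𝓞 K) (ℓ : ℕ)).to_subtype
      exact Summable.of_finite
    have : Finite {I : Ideal (𝓞 K) // Ideal.absNorm I = (ℓ : ℕ)} :=
      (Ideal.finite_setOfPred_absNorm_eq (S := 𝓞 K) (ℓ : ℕ)).to_subtype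
    have := Fintype.ofFinite {I : Ideal (𝓞 K) // Ideal.absNorm I = (ℓ : ℕ)}
    rw [tsum_fintype, Finset.sum_congr rfl (g := fun _ =>
      (χ ((ℓ : ℕ) : ZMod m)).re * ((ℓ : ℕ) : ℝ) ^ (-s)) fun I _ => ?_, Finset.sum_const,
      Finset.card_univ, ← Nat.card_eq_fintype_card, nsmul_eq_mul, charWeight, Gal.normCount,
      mul_assoc]
    simp [eulerTerm, xP, Gal.primesOfPrimeNormEquiv, I.2]
  rw [hgood] at hsplit
  have := abs_le.mp hbad
  exact ⟨le_trans (Real.exp_le_exp.mpr (by linarith)) hlow,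
    hupp.trans (Real.exp_le_exp.mpr (by linarith))⟩

/-- Either the prime sum of `χ` is at least `log (1 / (s - 1))`, or it is bounded above. -/
theorem pSum_charWeight_cases [NeZero m] (hχ : χ (-1) = 1) :
    (∃ C : ℝ, ∀ᶠ s in 𝓝[>] (1 : ℝ), logPole s - C ≤ pSum (charWeight K χ) s) ∨
      ∃ C : ℝ, ∀ᶠ s in 𝓝[>] (1 : ℝ), pSum (charWeight K χ) s ≤ C := by
  obtain ⟨c, l, hl⟩ := tendsto_normL (K := K) hχ
  obtain ⟨R, hR0, hR⟩ := exists_tendsto_refSum (K := K)
  obtain ⟨C, hC⟩ := exists_norm_normL_bound (K := K) (χ := χ)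
  rcases eq_or_ne c 0 with rfl | hc
  · right
    simp only [zero_mul, sub_zero] at hl
    refine ⟨Real.log (‖l‖ + 1) + C, ?_⟩
    filter_upwards [self_mem_nhdsWithin,
      ((continuous_norm.tendsto _).comp hl).eventually (Iic_mem_nhds (lt_add_one ‖l‖))] with s hs h
    have h1 := (hC s (Set.mem_Ioi.mp hs)).1.trans h
    rw [← Real.exp_log (show 0 < ‖l‖ + 1 by positivity), Real.exp_le_exp] at h1
    linarith
  · left
    have hlim : Tendsto (fun s : ℝ => ((s - 1 : ℝ) : ℂ) * normL K χ s) (𝓝[>] 1)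
        (𝓝 (c * (R : ℂ))) := by
      have h0 : Tendsto (fun s : ℝ => ((s - 1 : ℝ) : ℂ)) (𝓝[>] 1) (𝓝 0) := by
        simpa [Function.comp_def] using (Complex.continuous_ofReal.tendsto 0).comp tendsto_sub_one
      have h1 := (h0.mul hl).add ((((Complex.continuous_ofReal.tendsto R).comp hR)).const_mul c)
      rw [zero_mul, zero_add] at h1
      refine h1.congr fun s => ?_
      simp only [Function.comp_apply]
      push_cast
      ring
    have hpos : 0 < ‖c * (R : ℂ)‖ :=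
      norm_pos_iff.mpr (mul_ne_zero hc (Complex.ofReal_ne_zero.mpr hR0))
    refine ⟨C - Real.log (‖c * (R : ℂ)‖ / 2), ?_⟩
    filter_upwards [self_mem_nhdsWithin, ((continuous_norm.tendsto _).comp hlim).eventually
      (Ioi_mem_nhds (half_lt_self hpos))] with s hs h
    have hs0 : 0 < s - 1 := sub_pos.mpr (Set.mem_Ioi.mp hs)
    simp only [Function.comp_apply, norm_mul, Complex.norm_real, Real.norm_eq_abs,
      abs_of_pos hs0] at h
    have h1 := h.trans_le (mul_le_mul_of_nonneg_left (hC s (Set.mem_Ioi.mp hs)).2 hs0.le)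
    have h2 := Real.log_lt_log (by positivity) h1
    rw [Real.log_mul hs0.ne' (Real.exp_pos _).ne', Real.log_exp] at h2
    rw [logPole, Real.log_inv]
    simp only [norm_mul, Complex.norm_real, Real.norm_eq_abs] at h2 ⊢
    linarith

end

end Fermat.Agent.WeightOneGalois
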