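import Mathlib.NumberTheory.DirichletCharacter.Orthogonality
import Fermat.Agent.WeightOneGalois.Chebotarev.Euler

/-!
# Prime sums in classes modulo `m`

Weights `u` supported on a subgroup `W` of `(ℤ/m)ˣ`, with known sums over every subgroup of `W` and
such that every even character has a sum with a pole or bounded above, are equidistributed on `W`
modulo sign.
-/

noncomputable section

namespace Fermat.Agent.WeightOneGalois

open Filter Topology
open scoped Classical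

/-- `f` is `c log (1 / (s - 1))` up to a bounded error as `s → 1+`. -/
def LogAsymp (f : ℝ → ℝ) (c : ℝ) : Prop :=
  ∃ C : ℝ, ∀ᶠ s in 𝓝[>] (1 : ℝ), |f s - c * logPole s| ≤ C

theorem LogAsymp.congr {f g : ℝ → ℝ} {c : ℝ} (hf : LogAsymp f c)
    (h : ∃ C : ℝ, ∀ᶠ s in 𝓝[>] (1 : ℝ), |f s - g s| ≤ C) : LogAsymp g c := by
  obtain ⟨C, hC⟩ := hf
  obtain ⟨D, hD⟩ := h
  refine ⟨C + D, ?_⟩
  filter_upwards [hC, hD] with s h1 h2
  rw [show g s - c * logPole s = (f s - c * logPole s) - (f s - g s) by ring]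
  exact (abs_sub _ _).trans (add_le_add h1 h2)

theorem LogAsymp.const_mul {f : ℝ → ℝ} {c : ℝ} (hf : LogAsymp f c) (r : ℝ) :
    LogAsymp (fun s => r * f s) (r * c) := by
  obtain ⟨C, hC⟩ := hf
  refine ⟨|r| * C, ?_⟩
  filter_upwards [hC] with s h
  rw [mul_assoc, ← mul_sub, abs_mul]
  exact mul_le_mul_of_nonneg_left h (abs_nonneg r)

theorem logAsymp_sum {ι : Type*} (t : Finset ι) {f : ι → ℝ → ℝ} {c : ι → ℝ}
    (h : ∀ i ∈ t, LogAsymp (f i) (c i)) :
    LogAsymp (fun s => ∑ i ∈ t, f i s) (∑ i ∈ t, c i) := by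
  induction t using Finset.induction with
  | empty => exact ⟨0, Eventually.of_forall fun s => by simp⟩
  | @insert i t hi ih =>
    obtain ⟨C, hC⟩ := h i (Finset.mem_insert_self i t)
    obtain ⟨D, hD⟩ := ih fun j hj => h j (Finset.mem_insert_of_mem hj)
    refine ⟨C + D, ?_⟩
    filter_upwards [hC, hD] with s h1 h2
    rw [Finset.sum_insert hi, Finset.sum_insert hi, add_mul, add_sub_add_comm]
    exact (abs_add_le _ _).trans (add_le_add h1 h2)

theorem tendsto_logPole : Tendsto logPole (𝓝[>] 1) atTop := Gal.tendsto_log_inv_sub_one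

/-! ### Bounded weights -/

/-- Bounded weights. -/
def Bd (u : Nat.Primes → ℝ) : Prop := ∃ B : ℝ, ∀ ℓ, |u ℓ| ≤ B

theorem Bd.summable {u : Nat.Primes → ℝ} (hu : Bd u) {s : ℝ} (hs : 1 < s) :
    Summable fun ℓ : Nat.Primes => u ℓ * ((ℓ : ℕ) : ℝ) ^ (-s) := by
  obtain ⟨B, hB⟩ := hu
  refine Summable.of_norm_bounded
    ((Nat.Primes.summable_rpow.mpr (by linarith : -s < -1)).mul_left B) fun ℓ => ?_
  rw [norm_mul, Real.norm_eq_abs, Real.norm_eq_abs,
    abs_of_nonneg (Real.rpow_nonneg (Nat.cast_nonneg _) _)]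
  exact mul_le_mul_of_nonneg_right (hB ℓ) (Real.rpow_nonneg (Nat.cast_nonneg _) _)

theorem Bd.mul {u v : Nat.Primes → ℝ} (hu : Bd u) (hv : Bd v) : Bd fun ℓ => u ℓ * v ℓ := by
  obtain ⟨A, hA⟩ := hu
  obtain ⟨B, hB⟩ := hv
  exact ⟨|A| * |B|, fun ℓ => by
    rw [abs_mul]
    exact mul_le_mul ((hA ℓ).trans (le_abs_self A)) ((hB ℓ).trans (le_abs_self B)) (abs_nonneg _)
      (abs_nonneg A)⟩

theorem Bd.add {u v : Nat.Primes → ℝ} (hu : Bd u) (hv : Bd v) : Bd fun ℓ => u ℓ + v ℓ := by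
  obtain ⟨A, hA⟩ := hu
  obtain ⟨B, hB⟩ := hv
  exact ⟨A + B, fun ℓ => (abs_add_le _ _).trans (add_le_add (hA ℓ) (hB ℓ))⟩

theorem bd_zmod {m : ℕ} [NeZero m] (φ : ZMod m → ℝ) :
    Bd fun ℓ : Nat.Primes => φ ((ℓ : ℕ) : ZMod m) :=
  ⟨∑ b, |φ b|, fun _ => Finset.single_le_sum (f := fun b => |φ b|) (fun _ _ => abs_nonneg _)
    (Finset.mem_univ _)⟩

theorem bd_normCount (K : Type) [Field K] [NumberField K] :
    Bd fun ℓ : Nat.Primes => (Gal.normCount K ℓ : ℝ) :=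
  ⟨Module.finrank ℚ K, fun ℓ => by
    rw [Nat.abs_cast]; exact Nat.cast_le.mpr (Gal.normCount_le ℓ)⟩

theorem pSum_const_mul (u : Nat.Primes → ℝ) (r s : ℝ) :
    pSum (fun ℓ => r * u ℓ) s = r * pSum u s := by
  simp only [pSum, mul_assoc, tsum_mul_left]

theorem pSum_sum {ι : Type*} (t : Finset ι) {u : ι → Nat.Primes → ℝ} (h : ∀ i ∈ t, Bd (u i))
    {s : ℝ} (hs : 1 < s) : pSum (fun ℓ => ∑ i ∈ t, u i ℓ) s = ∑ i ∈ t, pSum (u i) s := by
  simp only [pSum, Finset.sum_mul]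
  exact Summable.tsum_finsetSum fun i hi => (h i hi).summable hs

theorem pSum_sub {u v : Nat.Primes → ℝ} (hu : Bd u) (hv : Bd v) {s : ℝ} (hs : 1 < s) :
    pSum (fun ℓ => u ℓ - v ℓ) s = pSum u s - pSum v s := by
  simp only [pSum, sub_mul]
  exact (hu.summable hs).tsum_sub (hv.summable hs)

theorem pSum_mono {u v : Nat.Primes → ℝ} (hu : Bd u) (hv : Bd v) (h : ∀ ℓ, u ℓ ≤ v ℓ) {s : ℝ}
    (hs : 1 < s) : pSum u s ≤ pSum v s :=
  Summable.tsum_le_tsum (fun ℓ => mul_le_mul_of_nonneg_right (h ℓ)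
    (Real.rpow_nonneg (Nat.cast_nonneg _) _)) (hu.summable hs) (hv.summable hs)

/-- Changing finitely many weights changes a prime sum by a bounded amount. -/
theorem exists_pSum_congr {u v : Nat.Primes → ℝ} (hu : Bd u) (hv : Bd v) (S : Finset ℕ)
    (h : ∀ ℓ : Nat.Primes, (ℓ : ℕ) ∉ S → u ℓ = v ℓ) :
    ∃ C : ℝ, ∀ᶠ s in 𝓝[>] (1 : ℝ), |pSum u s - pSum v s| ≤ C := by
  let T : Finset Nat.Primes :=
    S.preimage (fun ℓ : Nat.Primes => (ℓ : ℕ)) (fun a _ b _ h => Subtype.ext h)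
  refine ⟨∑ ℓ ∈ T, |u ℓ - v ℓ|, ?_⟩
  filter_upwards [self_mem_nhdsWithin] with s hs
  rw [← pSum_sub hu hv hs, pSum, tsum_eq_sum (s := T) fun ℓ hℓ => by
    rw [h ℓ fun hm => hℓ (Finset.mem_preimage.mpr hm), sub_self, zero_mul]]
  refine (Finset.abs_sum_le_sum_abs _ _).trans (Finset.sum_le_sum fun ℓ _ => ?_)
  rw [abs_mul, abs_of_nonneg (Real.rpow_nonneg (Nat.cast_nonneg _) _)]
  exact mul_le_of_le_one_right (abs_nonneg _) (Real.rpow_le_one_of_one_le_of_nonpos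
    (Nat.one_le_cast.mpr ℓ.2.one_lt.le) (by linarith [Set.mem_Ioi.mp hs]))

theorem logAsymp_normCount (K : Type) [Field K] [NumberField K] :
    LogAsymp (pSum fun ℓ => (Gal.normCount K ℓ : ℝ)) 1 := by
  obtain ⟨C, hC⟩ := Gal.exists_bound_primeSum K
  exact ⟨C, hC.mono fun s h => by simpa [pSum, logPole] using h⟩

/-! ### Characters -/

variable {m : ℕ} [NeZero m]

/-- The indicator of `± a`. -/
def pmInd (a : (ZMod m)ˣ) (b : ZMod m) : ℝ :=
  (if b = a then 1 else 0) + if b = -(a : ZMod m) then 1 else 0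

/-- The indicator of a subgroup of units. -/
def subInd (B : Subgroup (ZMod m)ˣ) (b : ZMod m) : ℝ :=
  if ∃ w ∈ B, (w : ZMod m) = b then 1 else 0

variable (m) in
/-- The even characters. -/
def evenChars : Finset (DirichletCharacter ℂ m) :=
  Finset.univ.filter fun χ : DirichletCharacter ℂ m => χ (-1) = 1

theorem sum_evenChars (a : (ZMod m)ˣ) (b : ZMod m) :
    (∑ χ ∈ evenChars m, 2 * (χ ((a⁻¹ : (ZMod m)ˣ) : ZMod m) * χ b)) =
      (m.totient : ℂ) * (pmInd a b : ℂ) := by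
  have key : ∀ c : (ZMod m)ˣ, ∑ χ : DirichletCharacter ℂ m, χ ((c⁻¹ : (ZMod m)ˣ) : ZMod m) * χ b =
      (m.totient : ℂ) * (((if b = c then 1 else 0 : ℝ)) : ℂ) := fun c => by
    rw [← ZMod.inv_coe_unit, DirichletCharacter.sum_char_inv_mul_char_eq ℂ c.isUnit b]
    by_cases h : (c : ZMod m) = b
    · simp [h]
    · rw [if_neg h, if_neg (Ne.symm h)]; simp
  have e : ∀ χ : DirichletCharacter ℂ m,
      (if χ (-1) = 1 then 2 * (χ ((a⁻¹ : (ZMod m)ˣ) : ZMod m) * χ b) else 0) =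
      χ ((a⁻¹ : (ZMod m)ˣ) : ZMod m) * χ b + χ (((-a)⁻¹ : (ZMod m)ˣ) : ZMod m) * χ b := fun χ => by
    have hneg : χ (((-a)⁻¹ : (ZMod m)ˣ) : ZMod m) = χ (-1) * χ ((a⁻¹ : (ZMod m)ˣ) : ZMod m) := by
      rw [← map_mul, inv_neg, Units.val_neg, neg_one_mul]
    rw [hneg]
    rcases mul_self_eq_one_iff.mp (show χ (-1) * χ (-1) = 1 by
        rw [← map_mul, neg_one_mul, neg_neg, map_one]) with h | h
    · rw [if_pos h, h]; ring
    · rw [if_neg (by rw [h]; norm_num), h]; ring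
  rw [evenChars, Finset.sum_filter, Finset.sum_congr rfl fun χ _ => e χ, Finset.sum_add_distrib,
    key, key, pmInd, Units.val_neg, Complex.ofReal_add, mul_add]

theorem sum_evenChars_re (a : (ZMod m)ˣ) (b : ZMod m) :
    ∑ χ ∈ evenChars m, 4 * (χ (a : ZMod m)).re * (χ b).re =
      (m.totient : ℝ) * (pmInd a b + pmInd a⁻¹ b) := by
  have h1 := congrArg Complex.re (congrArg₂ (· + ·) (sum_evenChars a b) (sum_evenChars a⁻¹ b))
  simp only [← mul_add, ← Finset.sum_add_distrib, Complex.re_sum] at h1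
  rw [← Complex.ofReal_natCast, ← Complex.ofReal_add, ← Complex.ofReal_mul,
    Complex.ofReal_re] at h1
  rw [← h1]
  refine Finset.sum_congr rfl fun χ _ => ?_
  have hc : χ ((a⁻¹ : (ZMod m)ˣ) : ZMod m) = (starRingEnd ℂ) (χ (a : ZMod m)) := by
    have hmul : χ ((a⁻¹ : (ZMod m)ˣ) : ZMod m) * χ (a : ZMod m) = 1 := by
      rw [← map_mul, Units.inv_mul, map_one]
    exact (eq_inv_of_mul_eq_one_left hmul).trans
      (Complex.inv_eq_conj (DirichletCharacter.unit_norm_eq_one χ a))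
  rw [inv_inv, hc]
  simp [Complex.mul_re]
  ring

theorem subInd_zpowers_neg_one (hm : 2 < m) (b : ZMod m) :
    subInd (Subgroup.zpowers (-1 : (ZMod m)ˣ)) b = pmInd 1 b := by
  have hne : (1 : ZMod m) ≠ -1 := fun h => by
    have : ((2 : ℕ) : ZMod m) = 0 := by push_cast; linear_combination h
    rw [ZMod.natCast_eq_zero_iff] at this
    exact absurd (Nat.le_of_dvd two_pos this) (by omega)
  have hmem : ∀ w : (ZMod m)ˣ, w ∈ Subgroup.zpowers (-1 : (ZMod m)ˣ) ↔ w = 1 ∨ w = -1 := fun w => by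
    constructor
    · rintro ⟨k, rfl⟩
      rcases Int.even_or_odd k with hk | hk
      · exact Or.inl hk.neg_one_zpow
      · exact Or.inr hk.neg_one_zpow
    · rintro (rfl | rfl)
      · exact one_mem _
      · exact Subgroup.mem_zpowers _
  rw [subInd, pmInd]
  simp only [hmem, Units.val_one, or_and_right, exists_or, exists_eq_left, Units.val_neg]
  by_cases h1 : b = 1
  · subst h1; simp [hne]
  · by_cases h2 : b = -1
    · subst h2; simp [hne.symm]
    · simp [h1, h2, Ne.symm h1, Ne.symm h2]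

/-- The sum of a character over a subgroup of units. -/
theorem sum_char_subgroup (W : Subgroup (ZMod m)ˣ) (χ : DirichletCharacter ℂ m) :
    (∑ w : W, χ ((w.1 : (ZMod m)ˣ) : ZMod m)) =
      if ∀ w ∈ W, χ ((w : (ZMod m)ˣ) : ZMod m) = 1 then (Nat.card W : ℂ) else 0 := by
  split_ifs with h
  · rw [Finset.sum_congr rfl fun w _ => h w.1 w.2, Finset.sum_const, Finset.card_univ,
      Nat.card_eq_fintype_card, nsmul_eq_mul, mul_one]
  · push Not at h
    obtain ⟨w0, hw0, hne⟩ := h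
    have h1 : χ ((w0 : (ZMod m)ˣ) : ZMod m) * (∑ w : W, χ ((w.1 : (ZMod m)ˣ) : ZMod m)) =
        ∑ w : W, χ ((w.1 : (ZMod m)ˣ) : ZMod m) := by
      rw [Finset.mul_sum]
      refine Fintype.sum_equiv (Equiv.mulLeft ⟨w0, hw0⟩) _ _ fun w => ?_
      rw [← map_mul]
      rfl
    exact (mul_left_eq_self₀.mp h1).resolve_left hne

/-- The number of even characters trivial on `W`. -/
theorem card_evenChars_trivial {W : Subgroup (ZMod m)ˣ} (hneg : -1 ∈ W) :
    ((((evenChars m).filter fun χ => ∀ w ∈ W, χ ((w : (ZMod m)ˣ) : ZMod m) = 1).card : ℕ) : ℝ) *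
      Nat.card W = m.totient := by
  set T := (evenChars m).filter fun χ => ∀ w ∈ W, χ ((w : (ZMod m)ˣ) : ZMod m) = 1 with hT
  have h1 : ∑ χ ∈ evenChars m, 2 * (∑ w : W, χ ((w.1 : (ZMod m)ˣ) : ZMod m)) =
      2 * (m.totient : ℂ) := by
    simp only [Finset.mul_sum]
    rw [Finset.sum_comm]
    have h2 : ∀ w : W, ∑ χ ∈ evenChars m, 2 * χ ((w.1 : (ZMod m)ˣ) : ZMod m) =
        (m.totient : ℂ) * (pmInd 1 ((w.1 : (ZMod m)ˣ) : ZMod m) : ℂ) := fun w => by
      simpa using sum_evenChars (1 : (ZMod m)ˣ) ((w.1 : (ZMod m)ˣ) : ZMod m)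
    rw [Finset.sum_congr rfl fun w _ => h2 w, ← Finset.mul_sum, ← Complex.ofReal_sum,
      mul_comm (2 : ℂ)]
    congr 1
    simp only [pmInd, Finset.sum_add_distrib]
    rw [Finset.sum_eq_single (⟨1, one_mem W⟩ : W) (fun w _ hw => if_neg fun h =>
        hw (Subtype.ext (Units.ext (by simpa using h)))) (by simp),
      Finset.sum_eq_single (⟨-1, hneg⟩ : W) (fun w _ hw => if_neg fun h =>
        hw (Subtype.ext (Units.ext (by simpa using h)))) (by simp)]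
    simp
    norm_num
  simp only [sum_char_subgroup, mul_ite, mul_zero, ← Finset.sum_filter, ← hT, Finset.sum_const,
    nsmul_eq_mul] at h1
  have h3 : (T.card : ℂ) * (Nat.card W : ℂ) = (m.totient : ℂ) := by linear_combination h1 / 2
  exact_mod_cast h3

/-- The prime sum of an even character which is non-trivial on `W` is bounded above. -/
theorem exists_pSum_char_le {u : Nat.Primes → ℝ} (hu : Bd u) (h0 : ∀ ℓ, 0 ≤ u ℓ)
    {W : Subgroup (ZMod m)ˣ} (hneg : -1 ∈ W) (S : Finset ℕ)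
    (hsupp : ∀ ℓ : Nat.Primes, (ℓ : ℕ) ∉ S → u ℓ ≠ 0 →
      ∃ w ∈ W, (w : ZMod m) = ((ℓ : ℕ) : ZMod m))
    (hB : ∀ B : Subgroup (ZMod m)ˣ, B ≤ W → -1 ∈ B →
      LogAsymp (pSum fun ℓ => u ℓ * subInd B ((ℓ : ℕ) : ZMod m)) ((Nat.card B : ℝ) / Nat.card W))
    {χ : DirichletCharacter ℂ m} (heven : χ (-1) = 1)
    (hnt : ¬ ∀ w ∈ W, χ ((w : (ZMod m)ˣ) : ZMod m) = 1)
    (hcases : (∃ C : ℝ, ∀ᶠ s in 𝓝[>] (1 : ℝ),
        logPole s - C ≤ pSum (fun ℓ => u ℓ * (χ ((ℓ : ℕ) : ZMod m)).re) s) ∨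
      ∃ C : ℝ, ∀ᶠ s in 𝓝[>] (1 : ℝ), pSum (fun ℓ => u ℓ * (χ ((ℓ : ℕ) : ZMod m)).re) s ≤ C) :
    ∃ C : ℝ, ∀ᶠ s in 𝓝[>] (1 : ℝ), pSum (fun ℓ => u ℓ * (χ ((ℓ : ℕ) : ZMod m)).re) s ≤ C := by
  set P : DirichletCharacter ℂ m → ℝ → ℝ :=
    fun χ => pSum fun ℓ => u ℓ * (χ ((ℓ : ℕ) : ZMod m)).re with hP
  have hbd : ∀ φ : ZMod m → ℝ, Bd fun ℓ : Nat.Primes => u ℓ * φ ((ℓ : ℕ) : ZMod m) :=
    fun φ => hu.mul (bd_zmod φ)
  have hWpos : (0 : ℝ) < Nat.card W := Nat.cast_pos.mpr Nat.card_pos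
  obtain ⟨C2, hC2⟩ : LogAsymp (pSum fun ℓ => u ℓ * subInd W ((ℓ : ℕ) : ZMod m)) 1 := by
    have := hB W le_rfl hneg
    rwa [div_self hWpos.ne'] at this
  refine hcases.resolve_left ?_
  rintro ⟨C, hC⟩
  set B : Subgroup (ZMod m)ˣ := W ⊓ χ.toUnitHom.ker with hBdef
  have hmemB : ∀ w, w ∈ B ↔ w ∈ W ∧ χ ((w : (ZMod m)ˣ) : ZMod m) = 1 := fun w => by
    rw [hBdef, Subgroup.mem_inf, MonoidHom.mem_ker, Units.ext_iff, MulChar.coe_toUnitHom,
      Units.val_one]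
  have hBneg : -1 ∈ B := (hmemB _).mpr ⟨hneg, by
    rw [Units.val_neg, Units.val_one]; exact heven⟩
  have hlt : Nat.card B < Nat.card W := by
    refine lt_of_le_of_ne (Subgroup.card_le_of_le inf_le_left) fun h => hnt ?_
    have hBW : B = W := Subgroup.eq_of_le_of_card_ge inf_le_left h.ge
    exact fun w hw => ((hmemB w).mp (hBW ▸ hw)).2
  -- a positive gap off the kernel
  obtain ⟨δ, hδ, hgap⟩ : ∃ δ : ℝ, 0 < δ ∧ ∀ w ∈ W, w ∉ B →
      δ ≤ 1 - (χ ((w : (ZMod m)ˣ) : ZMod m)).re := by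
    have hpos : ∀ w ∈ W, w ∉ B → 0 < 1 - (χ ((w : (ZMod m)ˣ) : ZMod m)).re := fun w hw hwB => by
      have hn := DirichletCharacter.unit_norm_eq_one χ w
      rcases eq_or_lt_of_le ((Complex.re_le_norm _).trans hn.le) with h | h
      · refine absurd ((hmemB w).mpr ⟨hw, Complex.ext h ?_⟩) hwB
        have := Complex.normSq_eq_norm_sq (χ ((w : (ZMod m)ˣ) : ZMod m))
        rw [Complex.normSq_apply, h, hn] at this
        rw [Complex.one_im]
        nlinarith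
      · linarith
    set F := Finset.univ.filter fun w : (ZMod m)ˣ => w ∈ W ∧ w ∉ B
    rcases F.eq_empty_or_nonempty with hF | hF
    · exact ⟨1, one_pos, fun w hw hwB => absurd
        (Finset.mem_filter.mpr ⟨Finset.mem_univ _, hw, hwB⟩ : w ∈ F)
            (Finset.eq_empty_iff_forall_notMem.mp hF w)⟩
    · obtain ⟨w0, hw0, hmin⟩ := Finset.exists_min_image F
        (fun w => 1 - (χ ((w : (ZMod m)ˣ) : ZMod m)).re) hF
      obtain ⟨-, h1, h2⟩ := Finset.mem_filter.mp hw0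
      exact ⟨_, hpos w0 h1 h2, fun w hw hwB =>
        hmin w (Finset.mem_filter.mpr ⟨Finset.mem_univ _, hw, hwB⟩)⟩
  set v : Nat.Primes → ℝ := fun ℓ =>
    u ℓ * (δ * (subInd W ((ℓ : ℕ) : ZMod m) - subInd B ((ℓ : ℕ) : ZMod m))) with hv
  set v' : Nat.Primes → ℝ := fun ℓ => if (ℓ : ℕ) ∈ S then v ℓ else
    u ℓ * (subInd W ((ℓ : ℕ) : ZMod m) - (χ ((ℓ : ℕ) : ZMod m)).re) with hv'
  set z : Nat.Primes → ℝ := fun ℓ =>
    u ℓ * (subInd W ((ℓ : ℕ) : ZMod m) - (χ ((ℓ : ℕ) : ZMod m)).re) with hz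
  have hbv : Bd v := hbd fun b => δ * (subInd W b - subInd B b)
  have hbz : Bd z := hbd fun b => subInd W b - (χ b).re
  have hbv' : Bd v' := by
    obtain ⟨X, hX⟩ := hbv
    obtain ⟨Y, hY⟩ := hbz
    refine ⟨max X Y, fun ℓ => ?_⟩
    simp only [hv']
    split_ifs
    · exact (hX ℓ).trans (le_max_left _ _)
    · exact (hY ℓ).trans (le_max_right _ _)
  have hle : ∀ ℓ, v ℓ ≤ v' ℓ := fun ℓ => by
    simp only [hv']
    split_ifs with hS'
    · exact le_rfl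
    rcases eq_or_ne (u ℓ) 0 with h | h
    · simp [hv, h]
    obtain ⟨w, hw, hwℓ⟩ := hsupp ℓ hS' h
    refine mul_le_mul_of_nonneg_left ?_ (h0 ℓ)
    rw [subInd, if_pos ⟨w, hw, hwℓ⟩, subInd]
    split_ifs with hb
    · obtain ⟨w', hw', e⟩ := hb
      rw [sub_self, mul_zero, ← e, ((hmemB w').mp hw').2, Complex.one_re, sub_self]
    · rw [sub_zero, mul_one, ← hwℓ]
      exact hgap w hw fun h' => hb ⟨w, h', hwℓ⟩
  obtain ⟨C1, hC1⟩ := exists_pSum_congr hbv' hbz S fun ℓ hℓ => by simp [hv', hz, hℓ]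
  obtain ⟨C3, hC3⟩ := hB B inf_le_left hBneg
  have hc : 0 < δ * (1 - (Nat.card B : ℝ) / Nat.card W) :=
    mul_pos hδ (by rw [sub_pos, div_lt_one hWpos]; exact_mod_cast hlt)
  have hev := ((tendsto_logPole.const_mul_atTop hc).eventually_gt_atTop
    (C + C1 + C2 + δ * (C2 + C3))).and (hC.and (hC1.and (hC2.and
      (hC3.and (self_mem_nhdsWithin : ∀ᶠ s in 𝓝[>] (1 : ℝ), s ∈ Set.Ioi (1 : ℝ))))))
  obtain ⟨s, hbig, hP', h1, h2, h3, hs⟩ := hev.exists
  have hsum := pSum_mono hbv hbv' hle hs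
  have ev : pSum v s = δ * (pSum (fun ℓ => u ℓ * subInd W ((ℓ : ℕ) : ZMod m)) s -
      pSum (fun ℓ => u ℓ * subInd B ((ℓ : ℕ) : ZMod m)) s) := by
    rw [← pSum_sub (hbd _) (hbd _) hs, ← pSum_const_mul]
    exact congrArg (fun f => pSum f s) (funext fun ℓ => by simp only [hv]; ring)
  have ez : pSum z s = pSum (fun ℓ => u ℓ * subInd W ((ℓ : ℕ) : ZMod m)) s - P χ s := by
    rw [hP, ← pSum_sub (hbd _) (hbd fun b => (χ b).re) hs]
    exact congrArg (fun f => pSum f s) (funext fun ℓ => by simp only [hz]; ring)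
  have a1 := abs_le.mp h1
  have a2 := abs_le.mp h2
  have a3 := abs_le.mp h3
  have hP'' : logPole s - C ≤ P χ s := hP'
  have m2 := mul_le_mul_of_nonneg_left a2.1 hδ.le
  have m3 := mul_le_mul_of_nonneg_left a3.2 hδ.le
  linarith

/-- Equidistribution modulo sign. -/
theorem logAsymp_pmInd (hm : 2 < m) {u : Nat.Primes → ℝ} (hu : Bd u) (h0 : ∀ ℓ, 0 ≤ u ℓ)
    {W : Subgroup (ZMod m)ˣ} (hneg : -1 ∈ W) (S : Finset ℕ)
    (hsupp : ∀ ℓ : Nat.Primes, (ℓ : ℕ) ∉ S → u ℓ ≠ 0 →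
      ∃ w ∈ W, (w : ZMod m) = ((ℓ : ℕ) : ZMod m))
    (hB : ∀ B : Subgroup (ZMod m)ˣ, B ≤ W → -1 ∈ B →
      LogAsymp (pSum fun ℓ => u ℓ * subInd B ((ℓ : ℕ) : ZMod m)) ((Nat.card B : ℝ) / Nat.card W))
    (hcases : ∀ χ : DirichletCharacter ℂ m, χ (-1) = 1 →
      (∃ C : ℝ, ∀ᶠ s in 𝓝[>] (1 : ℝ),
        logPole s - C ≤ pSum (fun ℓ => u ℓ * (χ ((ℓ : ℕ) : ZMod m)).re) s) ∨
      ∃ C : ℝ, ∀ᶠ s in 𝓝[>] (1 : ℝ), pSum (fun ℓ => u ℓ * (χ ((ℓ : ℕ) : ZMod m)).re) s ≤ C)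
    {a : (ZMod m)ˣ} (ha : a ∈ W) :
    LogAsymp (pSum fun ℓ => u ℓ * (pmInd a ((ℓ : ℕ) : ZMod m) + pmInd a⁻¹ ((ℓ : ℕ) : ZMod m)))
      (4 / Nat.card W) := by
  set E := evenChars m with hE
  set P : DirichletCharacter ℂ m → ℝ → ℝ :=
    fun χ => pSum fun ℓ => u ℓ * (χ ((ℓ : ℕ) : ZMod m)).re with hP
  have hbd : ∀ φ : ZMod m → ℝ, Bd fun ℓ : Nat.Primes => u ℓ * φ ((ℓ : ℕ) : ZMod m) :=
    fun φ => hu.mul (bd_zmod φ)
  have hWpos : (0 : ℝ) < Nat.card W := Nat.cast_pos.mpr Nat.card_pos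
  have hφpos : (0 : ℝ) < m.totient := Nat.cast_pos.mpr (Nat.totient_pos.mpr (NeZero.pos m))
  -- characters trivial on `W`
  set T := E.filter fun χ => ∀ w ∈ W, χ ((w : (ZMod m)ˣ) : ZMod m) = 1 with hT
  have hk : (T.card : ℝ) * Nat.card W = m.totient := card_evenChars_trivial hneg
  have hW1 : LogAsymp (pSum fun ℓ => u ℓ * subInd W ((ℓ : ℕ) : ZMod m)) 1 := by
    have := hB W le_rfl hneg
    rwa [div_self hWpos.ne'] at this
  have htriv : ∀ χ ∈ T, LogAsymp (P χ) 1 := fun χ hχ => by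
    refine hW1.congr (exists_pSum_congr (hbd _) (hbd fun b => (χ b).re) S fun ℓ hℓ => ?_)
    rcases eq_or_ne (u ℓ) 0 with h | h
    · simp [h]
    obtain ⟨w, hw, hwℓ⟩ := hsupp ℓ hℓ h
    rw [subInd, if_pos ⟨w, hw, hwℓ⟩]
    show _ = u ℓ * (χ _).re
    rw [← hwℓ, (Finset.mem_filter.mp hχ).2 w hw, Complex.one_re]
  -- the others are bounded above
  have habove : ∀ χ ∈ E \ T, ∃ C : ℝ, ∀ᶠ s in 𝓝[>] (1 : ℝ), P χ s ≤ C := fun χ hχ => by
    rw [Finset.mem_sdiff] at hχ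
    exact exists_pSum_char_le hu h0 hneg S hsupp hB (Finset.mem_filter.mp hχ.1).2
      (fun h => hχ.2 (Finset.mem_filter.mpr ⟨hχ.1, h⟩)) (hcases χ (Finset.mem_filter.mp hχ.1).2)
  -- hence bounded, their sum being bounded
  have htotal : LogAsymp (fun s => ∑ χ ∈ E, P χ s) T.card := by
    have h1 : LogAsymp (pSum fun ℓ => u ℓ * pmInd 1 ((ℓ : ℕ) : ZMod m)) (2 / Nat.card W) := by
      have hz := hB (Subgroup.zpowers (-1)) (Subgroup.zpowers_le.mpr hneg) (Subgroup.mem_zpowers _)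
      have hc2 : Nat.card (Subgroup.zpowers (-1 : (ZMod m)ˣ)) = 2 := by
        rw [Nat.card_zpowers, orderOf_eq_prime (p := 2) (by simp) fun h => ?_]
        have := congrArg (fun x : (ZMod m)ˣ => (x : ZMod m)) h
        have h2 : ((2 : ℕ) : ZMod m) = 0 := by
          push_cast
          simp only [Units.val_neg, Units.val_one] at this
          linear_combination -this
        rw [ZMod.natCast_eq_zero_iff] at h2
        exact absurd (Nat.le_of_dvd two_pos h2) (by omega)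
      rw [hc2] at hz
      simpa only [subInd_zpowers_neg_one hm, Nat.cast_ofNat] using hz
    have h2 := h1.const_mul ((m.totient : ℝ) / 2)
    rw [show (T.card : ℝ) = (m.totient : ℝ) / 2 * (2 / Nat.card W) by rw [← hk]; field_simp]
    refine h2.congr ⟨0, ?_⟩
    filter_upwards [self_mem_nhdsWithin] with s hs
    rw [← pSum_const_mul, hP, ← pSum_sum E (fun χ _ => hbd fun b => (χ b).re) hs]
    refine le_of_eq (abs_eq_zero.mpr (sub_eq_zero.mpr (congrArg (fun f => pSum f s)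
      (funext fun ℓ => ?_))))
    have h3 := sum_evenChars_re (1 : (ZMod m)ˣ) ((ℓ : ℕ) : ZMod m)
    simp only [inv_one, Units.val_one, map_one, Complex.one_re, mul_one, ← Finset.mul_sum] at h3
    rw [← Finset.mul_sum, hE]
    linear_combination -(u ℓ / 4) * h3
  have hzero : ∀ χ ∈ E \ T, LogAsymp (P χ) 0 := fun χ hχ => by
    choose! C hC using habove
    obtain ⟨D, hD⟩ := htotal
    obtain ⟨D', hD'⟩ := logAsymp_sum T htriv
    refine ⟨|C χ| + (D + D' + ∑ ψ ∈ E \ T, |C ψ|), ?_⟩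
    filter_upwards [hD, hD', (E \ T).eventually_all.mpr fun ψ hψ => hC ψ hψ] with s h1 h2 h3
    rw [zero_mul, sub_zero, abs_le]
    have hsplit := Finset.sum_sdiff (Finset.filter_subset _ E : T ⊆ E) (f := fun ψ => P ψ s)
    have hrest := Finset.add_sum_erase (E \ T) (fun ψ => P ψ s) hχ
    have hb : ∑ ψ ∈ (E \ T).erase χ, P ψ s ≤ ∑ ψ ∈ E \ T, |C ψ| :=
      (Finset.sum_le_sum fun ψ hψ => (h3 ψ (Finset.mem_of_mem_erase hψ)).trans
          (le_abs_self _)).trans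
        (Finset.sum_le_sum_of_subset_of_nonneg (Finset.erase_subset _ _)
          fun _ _ _ => abs_nonneg _)
    have := h3 χ hχ
    have a1 := abs_le.mp h1
    have a2 := abs_le.mp h2
    simp only [Finset.sum_const, nsmul_eq_mul, mul_one] at a2
    constructor <;> linarith [le_abs_self (C χ), abs_nonneg (C χ),
      Finset.sum_nonneg fun ψ (_ : ψ ∈ E \ T) => abs_nonneg (C ψ)]
  -- conclusion
  have hmain := logAsymp_sum E (f := fun χ s => 4 * (χ (a : ZMod m)).re / m.totient * P χ s)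
    (c := fun χ => if χ ∈ T then 4 / m.totient else 0) fun χ hχ => by
      by_cases h : χ ∈ T
      · rw [if_pos h]
        have := (htriv χ h).const_mul (4 * (χ (a : ZMod m)).re / m.totient)
        simp only [(Finset.mem_filter.mp h).2 a ha, Complex.one_re, mul_one] at this ⊢
        exact this
      · rw [if_neg h]
        simpa using (hzero χ (Finset.mem_sdiff.mpr ⟨hχ, h⟩)).const_mul
          (4 * (χ (a : ZMod m)).re / m.totient)
  rw [Finset.sum_ite_mem, Finset.inter_eq_right.mpr (Finset.filter_subset _ E), Finset.sum_const,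
    nsmul_eq_mul] at hmain
  have hT0 : (T.card : ℝ) ≠ 0 := left_ne_zero_of_mul (hk ▸ hφpos.ne')
  rw [show (4 : ℝ) / Nat.card W = T.card * (4 / m.totient) by rw [← hk]; field_simp]
  · refine hmain.congr ⟨0, ?_⟩
    filter_upwards [self_mem_nhdsWithin] with s hs
    simp only [hP, ← pSum_const_mul]
    rw [← pSum_sum E (fun χ _ => ?_) hs]
    · refine le_of_eq (abs_eq_zero.mpr (sub_eq_zero.mpr (congrArg (fun f => pSum f s)
        (funext fun ℓ => ?_))))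
      rw [eq_comm, ← mul_div_cancel_left₀ (pmInd a _ + pmInd a⁻¹ _) hφpos.ne', ← sum_evenChars_re,
        Finset.sum_div, Finset.mul_sum]
      exact Finset.sum_congr rfl fun χ _ => by ring
    · exact (bd_zmod (m := m) fun _ => 4 * (χ (a : ZMod m)).re / m.totient).mul
          (hbd fun b => (χ b).re)

end Fermat.Agent.WeightOneGalois
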