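import Mathlib.NumberTheory.Cyclotomic.CyclotomicCharacter
import Mathlib.RingTheory.Polynomial.Cyclotomic.Roots
import Mathlib.RingTheory.RootsOfUnity.AlgebraicallyClosed
import Fermat.Agent.Gal.Density

/-!
# Ideals of prime norm in a fixed field; the cyclotomic character modulo `m`

Counts primes of norm `ℓ` in the fixed field of a subgroup by fixed cosets of Frobenius, and gives
the values of the cyclotomic character at Frobenius and inertia. Both feed `Chebotarev/Cross`.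
-/

noncomputable section

namespace Fermat.Agent.WeightOneGalois

open Gal (AbsGal normCount)
open scoped Classical

local notation "Qbar" => AlgebraicClosure ℚ

/-- Away from finitely many primes, the ideals of norm `ℓ` of the fixed field of `H` are counted by
the Frobenius element in the finite quotient. -/
theorem exists_field_weight {Gm : Type} [Group Gm] (π : AbsGal →* Gm)
    (hπ : Function.Surjective π) (hfl : GaloisFactorsThroughFiniteLevel π) (H : Subgroup Gm) :
    ∃ (K : Type) (_ : Field K) (_ : NumberField K) (S : Finset ℕ),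
      ∀ ℓ : ℕ, ℓ.Prime → ℓ ∉ S → ∀ A : ValuationSubring Qbar, A.LiesOverPrime ℓ →
        ∀ σ : AbsGal, A.IsFrobeniusAt σ ℓ →
          normCount K ℓ * Nat.card H = Nat.card {x : Gm // x⁻¹ * π σ * x ∈ H} := by
  obtain ⟨L, hL, hπL⟩ := hfl
  set D : Subgroup AbsGal := H.comap π with hD
  have hLD : L.fixingSubgroup ≤ D := fun σ hσ => by
    rw [hD, Subgroup.mem_comap, hπL σ ((IntermediateField.mem_fixingSubgroup_iff L σ).mp hσ)]
    exact one_mem H
  set F := IntermediateField.fixedField D with hF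
  have hopen : IsOpen (D : Set AbsGal) :=
    Subgroup.isOpen_mono hLD ((InfiniteGalois.isOpen_iff_finite L).mpr hL)
  have hfix : F.fixingSubgroup = D :=
    InfiniteGalois.fixingSubgroup_fixedField ⟨D, D.isClosed_of_isOpen hopen⟩
  have hFfin : FiniteDimensional ℚ F := by
    refine (InfiniteGalois.isOpen_iff_finite F).mp ?_
    rw [hfix]
    exact hopen
  have hNF : NumberField F := @NumberField.mk _ _ inferInstance hFfin
  obtain ⟨S, hS⟩ := Gal.exists_finset_embeddings_separated F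
  refine ⟨F, inferInstance, hNF, S, fun ℓ hℓ hℓS A hA σ hσ => ?_⟩
  rw [Gal.normCount_eq_card_fixed hS hℓ hℓS hA hσ]
  choose sec hsec using hπ
  let r : Gm → (F →ₐ[ℚ] Qbar) := fun x => (sec x).toAlgHom.comp F.val
  have hr : ∀ (τ τ' : AbsGal), τ.toAlgHom.comp F.val = τ'.toAlgHom.comp F.val ↔
      (π τ)⁻¹ * π τ' ∈ H := by
    intro τ τ'
    rw [← map_inv, ← map_mul, ← Subgroup.mem_comap, ← hD, ← hfix,
      IntermediateField.mem_fixingSubgroup_iff]
    constructor
    · intro h z hz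
      have h1 : τ z = τ' z := AlgHom.congr_fun h ⟨z, hz⟩
      show τ.symm (τ' z) = z
      rw [← h1, τ.symm_apply_apply]
    · intro h
      refine AlgHom.ext fun z => ?_
      have h1 : τ.symm (τ' (z : Qbar)) = z := h z z.2
      show τ (z : Qbar) = τ' z
      conv_lhs => rw [← h1]
      rw [τ.apply_symm_apply]
  have hσr : ∀ x, σ.toAlgHom.comp (r x) = (σ * sec x).toAlgHom.comp F.val := fun x => rfl
  have hfixed : ∀ x, σ.toAlgHom.comp (r x) = r x ↔ x⁻¹ * π σ * x ∈ H := fun x => by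
    rw [eq_comm]
    refine (hr (sec x) (σ * sec x)).trans ?_
    rw [map_mul, hsec, mul_assoc]
  have hsurj : ∀ e : F →ₐ[ℚ] Qbar, ∃ x, r x = e := fun e => by
    obtain ⟨τ, hτ⟩ : ∃ τ : AbsGal, τ.toAlgHom.comp F.val = e := by
      have : Algebra.IsAlgebraic ℚ Qbar := AlgebraicClosure.isAlgebraic ℚ
      refine ⟨AlgEquiv.ofBijective (e.liftNormal Qbar)
        (Algebra.IsAlgebraic.algHom_bijective _), AlgHom.ext fun z => ?_⟩
      exact e.liftNormal_commutes Qbar z
    refine ⟨π τ, ?_⟩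
    refine ((hr (sec (π τ)) τ).mpr ?_).trans hτ
    rw [hsec, inv_mul_cancel]
    exact one_mem H
  choose pre hpre using hsurj
  have hrr : ∀ x y, r x = r y ↔ x⁻¹ * y ∈ H := fun x y =>
    (hr (sec x) (sec y)).trans (by rw [hsec, hsec])
  have hpre' : ∀ (z : F →ₐ[ℚ] Qbar) (c : H), r (pre z * c) = z := fun z c => by
    refine ((hrr _ _).mpr ?_).trans (hpre z)
    rw [mul_inv_rev, mul_assoc, inv_mul_cancel, mul_one]
    exact inv_mem c.2
  let eqv : {e : F →ₐ[ℚ] Qbar // σ.toAlgHom.comp e = e} × H ≃ {x : Gm // x⁻¹ * π σ * x ∈ H} :=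
    { toFun := fun z => ⟨pre z.1.1 * z.2, (hfixed _).mp (by rw [hpre']; exact z.1.2)⟩
      invFun := fun x => (⟨r x.1, (hfixed x.1).mpr x.2⟩,
        ⟨(pre (r x.1))⁻¹ * x.1, (hrr _ _).mp (hpre (r x.1))⟩)
      left_inv := fun z => by
        refine Prod.ext (Subtype.ext (hpre' _ _)) (Subtype.ext ?_)
        show (pre (r (pre z.1.1 * z.2)))⁻¹ * (pre z.1.1 * z.2) = z.2
        rw [hpre', inv_mul_cancel_left]
      right_inv := fun x => Subtype.ext (mul_inv_cancel_left _ _) }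
  rw [← Nat.card_prod, Nat.card_congr eqv]

/-! ### The cyclotomic character -/

variable (m : ℕ) [NeZero m]

theorem card_rootsOfUnity_qbar : Nat.card (rootsOfUnity m Qbar) = m :=
  HasEnoughRootsOfUnity.natCard_rootsOfUnity Qbar m

/-- The cyclotomic character modulo `m`. -/
def zchar : AbsGal →* (ZMod m)ˣ :=
  (modularCyclotomicCharacter Qbar (card_rootsOfUnity_qbar m)).comp
    (MulSemiringAction.toRingAut AbsGal Qbar)

variable {m}

theorem zchar_eq_natCast (σ : AbsGal) (c : ℕ) (h : ∀ ζ : Qbar, ζ ^ m = 1 → σ ζ = ζ ^ c) :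
    ((zchar m σ : (ZMod m)ˣ) : ZMod m) = (c : ZMod m) := by
  refine (modularCyclotomicCharacter.unique Qbar (card_rootsOfUnity_qbar m) _ fun t ht => ?_).symm
  have htm : (t : Qbar) ^ m = 1 := by
    rw [← Units.val_pow_eq_pow_val, (mem_rootsOfUnity m t).mp ht, Units.val_one]
  show σ (t : Qbar) = _
  rw [h _ htm, ZMod.val_natCast]
  exact pow_eq_pow_mod _ htm

theorem zchar_frobenius {ℓ : ℕ} (hℓ : ℓ.Prime) (hℓm : ¬ ℓ ∣ m) {A : ValuationSubring Qbar}
    (hA : A.LiesOverPrime ℓ) {σ : AbsGal} (hσ : A.IsFrobeniusAt σ ℓ) :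
    ((zchar m σ : (ZMod m)ˣ) : ZMod m) = (ℓ : ZMod m) :=
  zchar_eq_natCast σ ℓ fun _ hζ => Gal.isFrobeniusAt_rootOfUnity hℓ hA hσ hℓm hζ

theorem zchar_inertia {ℓ : ℕ} (hℓ : ℓ.Prime) (hℓm : ¬ ℓ ∣ m) {A : ValuationSubring Qbar}
    (hA : A.LiesOverPrime ℓ) {σ : AbsGal} (hσ : σ ∈ A.inertiaSubgroupIn ℚ) : zchar m σ = 1 := by
  refine Units.ext ((zchar_eq_natCast σ 1 fun ζ hζ => ?_).trans Nat.cast_one)
  rw [pow_one, Gal.inertia_rootOfUnity hℓ hA hσ hℓm hζ]

theorem zchar_finite_level : GaloisFactorsThroughFiniteLevel (zchar m) := by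
  obtain ⟨ζ, hζ⟩ := HasEnoughRootsOfUnity.exists_primitiveRoot Qbar m
  refine ⟨IntermediateField.adjoin ℚ {ζ}, IntermediateField.adjoin.finiteDimensional
    ((hζ.isIntegral (Nat.pos_of_neZero _)).tower_top), fun σ hσ => ?_⟩
  refine Units.ext ((zchar_eq_natCast σ 1 fun x hx => ?_).trans Nat.cast_one)
  obtain ⟨i, _, rfl⟩ := hζ.eq_pow_of_pow_eq_one hx
  rw [map_pow, hσ ζ (IntermediateField.subset_adjoin ℚ _ rfl), pow_one]

theorem zchar_surjective : Function.Surjective (zchar m) := fun u => by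
  obtain ⟨ζ, hζ⟩ := HasEnoughRootsOfUnity.exists_primitiveRoot Qbar m
  have hζ' := hζ.pow_of_coprime _ (ZMod.val_coe_unit_coprime u)
  obtain ⟨σ, hσ⟩ := minpoly.exists_algEquiv_of_root
    (Algebra.IsAlgebraic.isAlgebraic (ζ ^ ((u : ZMod m).val)))
    (show Polynomial.aeval ζ (minpoly ℚ (ζ ^ ((u : ZMod m).val))) = 0 by
      rw [← Polynomial.cyclotomic_eq_minpoly_rat hζ' (NeZero.pos m),
        Polynomial.cyclotomic_eq_minpoly_rat hζ (NeZero.pos m), minpoly.aeval])
  refine ⟨σ, Units.ext ((zchar_eq_natCast σ ((u : ZMod m).val) fun x hx => ?_).trans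
    (ZMod.natCast_zmod_val _))⟩
  obtain ⟨i, _, rfl⟩ := hζ.eq_pow_of_pow_eq_one hx
  rw [map_pow, hσ, ← pow_mul, ← pow_mul, mul_comm]

end Fermat.Agent.WeightOneGalois
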