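import Mathlib.NumberTheory.LSeries.PrimesInAP
import Mathlib.NumberTheory.PrimesCongruentOne
import Fermat.Agent.WeightOneGalois.Chebotarev.FixedField
import Fermat.Agent.WeightOneGalois.Chebotarev.PrimeSum

/-!
# A one-sided Chebotarev theorem

For a class function invariant under inversion, the prime sum of its values at Frobenius elements
is at least three quarters of its mean times `log (1 / (s - 1))`.

The class of `g` is met with a real cyclotomic field of prime conductor `m`: over the fixed field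
of `⟨(g, a)⟩` the extension is cyclotomic.
-/

noncomputable section

namespace Fermat.Agent.WeightOneGalois

open Filter Topology
open Gal (AbsGal normCount)
open scoped Classical

local notation "Qbar" => AlgebraicClosure ℚ

theorem sum_inv_cube_le : ∀ n : ℕ, 2 ≤ n →
    ∑ q ∈ Finset.Icc 2 n, ((q : ℝ) ^ 3)⁻¹ ≤ 1 / 4 - 1 / (2 * n * (n + 1))
  | 0, h => by omega
  | 1, h => by omega
  | 2, _ => by norm_num
  | n + 3, _ => by
    rw [Finset.sum_Icc_succ_top (by omega)]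
    have ih := sum_inv_cube_le (n + 2) (by omega)
    push_cast at ih ⊢
    have h : ((n : ℝ) + 3) * ((n : ℝ) + 3) ≥ ((n : ℝ) + 2) * ((n : ℝ) + 4) := by nlinarith
    have e : 1 / (2 * ((n : ℝ) + 2) * ((n : ℝ) + 2 + 1)) -
        1 / (2 * ((n : ℝ) + 3) * ((n : ℝ) + 3 + 1))
        = 1 / (((n : ℝ) + 2) * ((n : ℝ) + 3) * ((n : ℝ) + 4)) := by
      field_simp
      ring
    have h2 : (((n : ℝ) + 3) ^ 3)⁻¹ ≤ 1 / (((n : ℝ) + 2) * ((n : ℝ) + 3) * ((n : ℝ) + 4)) := by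
      rw [one_div]
      exact inv_anti₀ (by positivity) (by nlinarith)
    rw [show (n : ℝ) + 2 + 1 = (n : ℝ) + 3 by ring] at ih e ⊢
    linarith

/-- Most elements of a cyclic group of order divisible by `2 n³` have squares of order divisible
by `n`. -/
theorem card_good {U : Type*} [CommGroup U] [Fintype U] [IsCyclic U] {n : ℕ} (hn : 0 < n)
    (hdvd : 2 * n ^ 3 ∣ Fintype.card U) :
    3 / 4 * (Fintype.card U : ℝ) ≤
      ((Finset.univ.filter fun a : U => n ∣ orderOf (a ^ 2)).card : ℝ) := by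
  set k := Fintype.card U with hk
  set good := Finset.univ.filter fun a : U => n ∣ orderOf (a ^ 2)
  set bad := Finset.univ.filter fun a : U => ¬ n ∣ orderOf (a ^ 2)
  obtain ⟨t, ht⟩ := hdvd
  have hk0 : k ≠ 0 := Fintype.card_ne_zero
  have ht0 : t ≠ 0 := fun h => hk0 (by rw [ht, h, mul_zero])
  have hsub : bad ⊆ n.primeFactors.biUnion fun q =>
      Finset.univ.filter fun a : U => a ^ (k / q ^ 3) = 1 := fun a ha => by
    obtain ⟨-, ha⟩ := Finset.mem_filter.mp ha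
    have ho : orderOf (a ^ 2) ∣ n ^ 3 * t := by
      refine orderOf_dvd_of_pow_eq_one ?_
      rw [← pow_mul, ← mul_assoc, ← ht, hk, pow_card_eq_one]
    have hnt : n ^ 3 * t ≠ 0 := mul_ne_zero (pow_ne_zero _ hn.ne') ht0
    have ho0 : orderOf (a ^ 2) ≠ 0 := ne_zero_of_dvd_ne_zero hnt ho
    obtain ⟨q, hq⟩ : ∃ q, (orderOf (a ^ 2)).factorization q < n.factorization q := by
      by_contra hcon
      push Not at hcon
      exact ha ((Nat.factorization_le_iff_dvd hn.ne' ho0).mp fun q => hcon q)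
    have hqn : q ∈ n.primeFactors := by
      rw [← Nat.support_factorization, Finsupp.mem_support_iff]; omega
    have hqp := Nat.prime_of_mem_primeFactors hqn
    refine Finset.mem_biUnion.mpr ⟨q, hqn, Finset.mem_filter.mpr ⟨Finset.mem_univ _, ?_⟩⟩
    have hdiv : orderOf (a ^ 2) * q ^ 3 ∣ n ^ 3 * t := by
      rw [← Nat.factorization_le_iff_dvd (mul_ne_zero ho0 (pow_ne_zero _ hqp.ne_zero)) hnt]
      intro r
      rw [Nat.factorization_mul ho0 (pow_ne_zero _ hqp.ne_zero),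
        Nat.factorization_mul (pow_ne_zero _ hn.ne') ht0, Nat.factorization_pow,
        Nat.factorization_pow, hqp.factorization]
      have hle := (Nat.factorization_le_iff_dvd ho0 hnt).mpr ho r
      rw [Nat.factorization_mul (pow_ne_zero _ hn.ne') ht0, Nat.factorization_pow] at hle
      simp only [Finsupp.coe_add, Pi.add_apply, Finsupp.coe_smul, Pi.smul_apply, smul_eq_mul,
        Finsupp.single_apply] at hle ⊢
      rcases eq_or_ne q r with rfl | hne
      · rw [if_pos rfl]; omega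
      · rw [if_neg hne]; omega
    obtain ⟨c, hc⟩ := hdiv
    have e : k / q ^ 3 = 2 * (orderOf (a ^ 2) * c) := by
      refine Nat.div_eq_of_eq_mul_left (pow_pos hqp.pos 3) ?_
      rw [ht, mul_assoc, hc]
      ring
    rw [e, pow_mul, pow_mul, pow_orderOf_eq_one, one_pow]
  have hroots : ∀ q ∈ n.primeFactors,
      ((Finset.univ.filter fun a : U => a ^ (k / q ^ 3) = 1).card : ℝ) ≤ k * ((q : ℝ) ^ 3)⁻¹ := by
    intro q hq
    have hd : q ^ 3 ∣ k := by
      rw [ht]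
      exact dvd_mul_of_dvd_left (dvd_mul_of_dvd_right
        (pow_dvd_pow_of_dvd (Nat.dvd_of_mem_primeFactors hq) 3) 2) t
    have hpos : 0 < k / q ^ 3 := Nat.div_pos (Nat.le_of_dvd (Nat.pos_of_ne_zero hk0) hd)
      (pow_pos (Nat.prime_of_mem_primeFactors hq).pos 3)
    refine (Nat.cast_le.mpr (IsCyclic.card_pow_eq_one_le (α := U) hpos)).trans (le_of_eq ?_)
    rw [Nat.cast_div hd (Nat.cast_ne_zero.mpr
      (pow_ne_zero _ (Nat.prime_of_mem_primeFactors hq).ne_zero)), Nat.cast_pow, div_eq_mul_inv]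
  have hsum : ∑ q ∈ n.primeFactors, ((q : ℝ) ^ 3)⁻¹ ≤ 1 / 4 := by
    refine (Finset.sum_le_sum_of_subset_of_nonneg (t := Finset.Icc 2 (n + 2)) (fun q hq => ?_)
      fun _ _ _ => by positivity).trans ((sum_inv_cube_le (n + 2) (by omega)).trans ?_)
    · exact Finset.mem_Icc.mpr ⟨(Nat.prime_of_mem_primeFactors hq).two_le,
        (Nat.le_of_mem_primeFactors hq).trans (Nat.le_add_right n 2)⟩
    · have : (0 : ℝ) ≤ 1 / (2 * ((n + 2 : ℕ) : ℝ) * (((n + 2 : ℕ) : ℝ) + 1)) := by positivity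
      linarith
  have hbad : (bad.card : ℝ) ≤ (k : ℝ) * (1 / 4) := by
    refine (Nat.cast_le.mpr ((Finset.card_le_card hsub).trans Finset.card_biUnion_le)).trans ?_
    push_cast
    refine (Finset.sum_le_sum hroots).trans ?_
    rw [← Finset.mul_sum]
    exact mul_le_mul_of_nonneg_left hsum (Nat.cast_nonneg _)
  have htot : (good.card : ℝ) + bad.card = k := by
    rw [hk, ← Finset.card_univ, ← Nat.cast_add, Nat.cast_inj]
    exact Finset.card_filter_add_card_filter_not _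
  linarith

section Joint

variable {G : Type} [Group G] {m : ℕ}

/-- The powers of `(g, a)`, up to the sign of the second component. -/
def pmPowers (g : G) (a : (ZMod m)ˣ) : Subgroup (G × (ZMod m)ˣ) where
  carrier := {x | ∃ i : ℤ, x.1 = g ^ i ∧ (x.2 = a ^ i ∨ x.2 = -a ^ i)}
  one_mem' := ⟨0, by simp, Or.inl (by simp)⟩
  mul_mem' := by
    rintro x y ⟨i, hi, hi'⟩ ⟨j, hj, hj'⟩
    refine ⟨i + j, by rw [Prod.fst_mul, hi, hj, zpow_add], ?_⟩
    rw [Prod.snd_mul, zpow_add]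
    rcases hi' with h | h <;> rcases hj' with h' | h' <;> rw [h, h'] <;> simp
  inv_mem' := by
    rintro x ⟨i, hi, hi'⟩
    refine ⟨-i, by rw [Prod.fst_inv, hi, zpow_neg], ?_⟩
    rw [Prod.snd_inv, zpow_neg]
    rcases hi' with h | h <;> rw [h] <;> simp [inv_neg]

theorem pmPowers_fst_eq {g : G} {a : (ZMod m)ˣ} (hga : orderOf g ∣ orderOf (a ^ 2))
    {x y : G × (ZMod m)ˣ} (hx : x ∈ pmPowers g a) (hy : y ∈ pmPowers g a) (h : x.2 = y.2) :
    x.1 = y.1 := by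
  obtain ⟨i, hi, hi'⟩ := hx
  obtain ⟨j, hj, hj'⟩ := hy
  have h2 : (a ^ i) ^ 2 = (a ^ j) ^ 2 := by
    rcases hi' with e | e <;> rcases hj' with e' | e' <;> rw [e, e'] at h <;>
      refine Units.ext ?_ <;> rw [Units.val_pow_eq_pow_val, Units.val_pow_eq_pow_val]
    all_goals
      have h' := congrArg (fun z : (ZMod m)ˣ => (z : ZMod m) ^ 2) h
      simpa only [Units.val_neg, neg_sq] using h'
  have h3 : (a ^ 2) ^ (i - j) = 1 := by
    rw [zpow_sub, ← zpow_natCast a 2, ← zpow_mul, ← zpow_mul, mul_comm _ i, mul_comm _ j, zpow_mul,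
      zpow_mul, zpow_natCast, zpow_natCast, h2, mul_inv_cancel]
  have h4 : g ^ (i - j) = 1 := orderOf_dvd_iff_zpow_eq_one.mp
    ((Int.natCast_dvd_natCast.mpr hga).trans (orderOf_dvd_iff_zpow_eq_one.mpr h3))
  rw [hi, hj, ← mul_inv_eq_one, ← zpow_neg, ← zpow_add, ← sub_eq_add_neg, h4]

end Joint

variable (N : IntermediateField ℚ Qbar) [FiniteDimensional ℚ N] [IsGalois ℚ N]

/-- The number of `h` conjugating `f` to `g`. -/
def conjTo (f g : Gal(N/ℚ)) : ℕ := Nat.card {h : Gal(N/ℚ) // h⁻¹ * f * h = g}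

omit [FiniteDimensional ℚ ↥N] in
/-- At a prime `m` unramified in `N`, `Gal(N/ℚ)` and the cyclotomic character modulo `m` are
jointly surjective. -/
theorem joint_surjective {m : ℕ} [Fact m.Prime]
    (hN : ∀ A : ValuationSubring Qbar, A.LiesOverPrime m →
      ∀ σ ∈ A.inertiaSubgroupIn ℚ, ∀ x ∈ N, σ x = x) :
    Function.Surjective ((AlgEquiv.restrictNormalHom N).prod (zchar m) :
      AbsGal →* Gal(N/ℚ) × (ZMod m)ˣ) := by
  set V : Subgroup (ZMod m)ˣ :=
    (AlgEquiv.restrictNormalHom N : AbsGal →* Gal(N/ℚ)).ker.map (zchar m) with hV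
  have hρfl : GaloisFactorsThroughFiniteLevel ((QuotientGroup.mk' V).comp (zchar m)) := by
    obtain ⟨L, hL, h⟩ := zchar_finite_level (m := m)
    exact ⟨L, hL, fun σ hσ => by rw [MonoidHom.comp_apply, h σ hσ, map_one]⟩
  have hρ : ∀ σ, (QuotientGroup.mk' V).comp (zchar m) σ = 1 := by
    refine Gal.eq_one_of_unramified _ hρfl fun ℓ hℓ A hA σ hσ => ?_
    rw [MonoidHom.comp_apply]
    by_cases h : ℓ = m
    · subst h
      rw [QuotientGroup.mk'_apply, QuotientGroup.eq_one_iff]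
      refine ⟨σ, ?_, rfl⟩
      rw [SetLike.mem_coe, MonoidHom.mem_ker]
      refine AlgEquiv.ext fun x => (algebraMap N Qbar).injective ?_
      exact (σ.restrictNormal_commutes N x).trans (hN A hA σ hσ x x.2)
    · rw [zchar_inertia hℓ (fun hd => h ((Nat.prime_dvd_prime_iff_eq hℓ Fact.out).mp hd)) hA hσ,
        map_one]
  rintro ⟨g, u⟩
  obtain ⟨σ, hσ⟩ := AlgEquiv.restrictNormalHom_surjective (K₁ := N) Qbar g
  obtain ⟨τ, hτ⟩ := zchar_surjective ((zchar m σ)⁻¹ * u)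
  have := hρ τ
  rw [MonoidHom.comp_apply, QuotientGroup.mk'_apply, QuotientGroup.eq_one_iff, hτ] at this
  obtain ⟨κ, hκ, hκ'⟩ := this
  rw [SetLike.mem_coe, MonoidHom.mem_ker] at hκ
  refine ⟨σ * κ, Prod.ext ?_ ?_⟩
  · rw [MonoidHom.prod_apply, map_mul, hκ, mul_one, hσ]
  · show zchar m (σ * κ) = u
    rw [map_mul, hκ', mul_inv_cancel_left]

theorem joint_finite_level (m : ℕ) [NeZero m] :
    GaloisFactorsThroughFiniteLevel ((AlgEquiv.restrictNormalHom N).prod (zchar m) :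
      AbsGal →* Gal(N/ℚ) × (ZMod m)ˣ) := by
  obtain ⟨L, hL, h⟩ := zchar_finite_level (m := m)
  refine ⟨N ⊔ L, inferInstance, fun σ hσ => Prod.ext ?_ ?_⟩
  · refine AlgEquiv.ext fun x => (algebraMap N Qbar).injective ?_
    exact (σ.restrictNormal_commutes N x).trans (hσ x ((le_sup_left : N ≤ N ⊔ L) x.2))
  · exact h σ fun x hx => hσ x ((le_sup_right : L ≤ N ⊔ L) hx)

variable {A : Nat.Primes → ValuationSubring Qbar} {σ : Nat.Primes → AbsGal}
  (hA : ∀ ℓ, (A ℓ).LiesOverPrime ℓ) (hσ : ∀ ℓ, (A ℓ).IsFrobeniusAt (σ ℓ) ℓ)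

include hA hσ

omit [FiniteDimensional ℚ N] [IsGalois ℚ N] hA hσ in
/-- The elements of `pmPowers g a` over a subgroup of its projection biject with that subgroup. -/
theorem card_pmPowers_inf {m : ℕ} {g : Gal(N/ℚ)} {a : (ZMod m)ˣ}
    (hga : orderOf g ∣ orderOf (a ^ 2)) {B : Subgroup (ZMod m)ˣ}
    (hB : B ≤ (pmPowers g a).map (MonoidHom.snd _ _)) :
    Nat.card (pmPowers g a ⊓ B.comap (MonoidHom.snd _ _) :
        Subgroup (Gal(N/ℚ) × (ZMod m)ˣ)) = Nat.card B := by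
  refine Nat.card_eq_of_bijective
    (fun x => (⟨x.1.2, (Subgroup.mem_inf.mp x.2).2⟩ : B)) ⟨fun x y h => ?_, fun b => ?_⟩
  · have h2 : x.1.2 = y.1.2 := congrArg Subtype.val h
    exact Subtype.ext (Prod.ext
      (pmPowers_fst_eq hga (Subgroup.mem_inf.mp x.2).1 (Subgroup.mem_inf.mp y.2).1 h2) h2)
  · obtain ⟨x, hx, hxb⟩ := hB b.2
    refine ⟨⟨x, Subgroup.mem_inf.mpr ⟨hx, ?_⟩⟩, Subtype.ext hxb⟩
    rw [Subgroup.mem_comap]
    exact hxb.symm ▸ b.2

/-- One admissible class modulo `m`. -/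
theorem logAsymp_conjTo {m : ℕ} [Fact m.Prime] (hm : 2 < m)
    (hN : ∀ B : ValuationSubring Qbar, B.LiesOverPrime m →
      ∀ τ ∈ B.inertiaSubgroupIn ℚ, ∀ x ∈ N, τ x = x)
    (g : Gal(N/ℚ)) {a : (ZMod m)ˣ} (hga : orderOf g ∣ orderOf (a ^ 2)) :
    LogAsymp (pSum fun ℓ =>
        (conjTo N (AlgEquiv.restrictNormalHom N (σ ℓ)) g : ℝ) * pmInd a ((ℓ : ℕ) : ZMod m) +
        (conjTo N (AlgEquiv.restrictNormalHom N (σ ℓ)) g⁻¹ : ℝ) *
          pmInd a⁻¹ ((ℓ : ℕ) : ZMod m))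
      (4 / Nat.card (ZMod m)ˣ) := by
  set π : AbsGal →* Gal(N/ℚ) × (ZMod m)ˣ := (AlgEquiv.restrictNormalHom N).prod (zchar m) with hπ
  have hsurj : Function.Surjective π := joint_surjective N hN
  have hfl : GaloisFactorsThroughFiniteLevel π := joint_finite_level N m
  set D := pmPowers g a with hD
  set W : Subgroup (ZMod m)ˣ := D.map (MonoidHom.snd _ _) with hW
  have hcard : ∀ B : Subgroup (ZMod m)ˣ, B ≤ W →
      Nat.card (D ⊓ B.comap (MonoidHom.snd _ _) : Subgroup (Gal(N/ℚ) × (ZMod m)ˣ)) =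
        Nat.card B := fun B hB => card_pmPowers_inf N hga hB
  set f : Nat.Primes → Gal(N/ℚ) := fun ℓ => AlgEquiv.restrictNormalHom N (σ ℓ) with hf
  set cnt : Gal(N/ℚ) → ZMod m → ℕ := fun x c =>
    Nat.card {h : Gal(N/ℚ) // ∃ u : (ZMod m)ˣ, (u : ZMod m) = c ∧ (h⁻¹ * x * h, u) ∈ D} with hcnt
  have hweight : ∀ B : Subgroup (ZMod m)ˣ, B ≤ W →
      ∃ (K : Type) (_ : Field K) (_ : NumberField K) (S : Finset ℕ),
        ∀ ℓ : Nat.Primes, (ℓ : ℕ) ∉ S →
          (normCount K ℓ : ℝ) * Nat.card B =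
            (Nat.card (ZMod m)ˣ : ℝ) * cnt (f ℓ) ((ℓ : ℕ) : ZMod m) *
              subInd B ((ℓ : ℕ) : ZMod m) := by
    intro B hB
    obtain ⟨K, hKf, hKn, S, hS⟩ := exists_field_weight π hsurj hfl (D ⊓ B.comap (MonoidHom.snd _ _))
    refine ⟨K, hKf, hKn, insert m S, fun ℓ hℓ => ?_⟩
    rw [Finset.mem_insert, not_or] at hℓ
    have h1 := hS ℓ ℓ.2 hℓ.2 (A ℓ) (hA ℓ) (σ ℓ) (hσ ℓ)
    rw [hcard B hB] at h1
    have hu : ((zchar m (σ ℓ) : (ZMod m)ˣ) : ZMod m) = ((ℓ : ℕ) : ZMod m) :=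
      zchar_frobenius ℓ.2 (fun hd => hℓ.1 ((Nat.prime_dvd_prime_iff_eq ℓ.2 Fact.out).mp hd))
        (hA ℓ) (hσ ℓ)
    rw [← Nat.cast_mul, h1]
    set c := zchar m (σ ℓ)
    have hπℓ : π (σ ℓ) = (f ℓ, c) := rfl
    rw [← hu]
    by_cases hc : c ∈ B
    · rw [subInd, if_pos ⟨c, hc, rfl⟩, mul_one, ← Nat.cast_mul, mul_comm, hcnt, ← Nat.card_prod,
        Nat.cast_inj]
      refine Nat.card_congr
        { toFun := fun x => (⟨x.1.1, c, rfl, ?_⟩, x.1.2)
          invFun := fun z => ⟨(z.1.1, z.2), ?_⟩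
          left_inv := fun x => rfl
          right_inv := fun z => rfl }
      · have : x.1⁻¹ * (f ℓ, c) * x.1 ∈ D := (Subgroup.mem_inf.mp x.2).1
        convert this using 1
        exact Prod.ext (by simp [mul_assoc]) (by simp)
      · obtain ⟨w, hw', hmem⟩ := z.1.2
        rw [show w = c from Units.ext hw'] at hmem
        rw [hπℓ, Subgroup.mem_inf]
        refine ⟨?_, ?_⟩
        · convert hmem using 1
          exact Prod.ext (by simp [mul_assoc]) (by simp)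
        rw [Subgroup.mem_comap]
        simpa [mul_comm c] using hc
    · rw [subInd, if_neg (fun ⟨w, hw, e⟩ => hc (Units.ext e ▸ hw)), mul_zero, Nat.cast_eq_zero,
        Nat.card_eq_zero]
      refine Or.inl ⟨fun x => hc ?_⟩
      have : x.1⁻¹ * (f ℓ, c) * x.1 ∈ B.comap (MonoidHom.snd _ _) := (Subgroup.mem_inf.mp x.2).2
      rw [Subgroup.mem_comap] at this
      simpa [mul_comm c] using this
  obtain ⟨K, hKf, hKn, S, hS⟩ := hweight W le_rfl
  set u : Nat.Primes → ℝ := fun ℓ => (normCount K ℓ : ℝ) with hu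
  have hWpos : (0 : ℝ) < Nat.card W := Nat.cast_pos.mpr Nat.card_pos
  have hUpos : (0 : ℝ) < Nat.card (ZMod m)ˣ := Nat.cast_pos.mpr Nat.card_pos
  have hW_of_cnt : ∀ x c, cnt x c ≠ 0 → ∃ w ∈ W, (w : ZMod m) = c := fun x c h => by
    obtain ⟨⟨h', u, hu', hmem⟩⟩ := (Nat.card_ne_zero.mp h).1
    exact ⟨u, ⟨_, hmem, rfl⟩, hu'⟩
  have hsupp : ∀ ℓ : Nat.Primes, (ℓ : ℕ) ∉ S → u ℓ ≠ 0 →
      ∃ w ∈ W, (w : ZMod m) = ((ℓ : ℕ) : ZMod m) := fun ℓ hℓ h => by
    refine hW_of_cnt (f ℓ) _ fun h0 => h ?_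
    have := hS ℓ hℓ
    rw [h0, Nat.cast_zero, mul_zero, zero_mul, mul_eq_zero] at this
    exact this.resolve_right hWpos.ne'
  have hneg : -1 ∈ W := ⟨(1, -1), ⟨0, by simp, Or.inr (by simp)⟩, rfl⟩
  have haW : a ∈ W := ⟨(g, a), ⟨1, by simp, Or.inl (by simp)⟩, rfl⟩
  have hB : ∀ B : Subgroup (ZMod m)ˣ, B ≤ W → -1 ∈ B →
      LogAsymp (pSum fun ℓ => u ℓ * subInd B ((ℓ : ℕ) : ZMod m))
        ((Nat.card B : ℝ) / Nat.card W) := fun B hBW _ => by
    obtain ⟨K', hKf', hKn', S', hS'⟩ := hweight B hBW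
    have h1 := (logAsymp_normCount K').const_mul ((Nat.card B : ℝ) / Nat.card W)
    rw [mul_one] at h1
    refine h1.congr ?_
    simp only [← pSum_const_mul]
    refine exists_pSum_congr ((bd_zmod (m := m) fun _ => _).mul (bd_normCount K'))
      ((bd_normCount K).mul (bd_zmod (subInd B))) (S ∪ S') fun ℓ hℓ => ?_
    rw [Finset.mem_union, not_or] at hℓ
    rw [div_mul_eq_mul_div, mul_comm (Nat.card B : ℝ), hS' ℓ hℓ.2, div_eq_iff hWpos.ne']
    simp only [hu, subInd]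
    split_ifs with h
    · obtain ⟨w, hw, e⟩ := h
      have := hS ℓ hℓ.1
      rw [subInd, if_pos ⟨w, hBW hw, e⟩] at this
      linear_combination -this
    · ring
  have hmain := logAsymp_pmInd hm (bd_normCount K) (fun ℓ => Nat.cast_nonneg _) hneg S hsupp hB
    (fun χ hχ => pSum_charWeight_cases (K := K) hχ) haW
  have hmain' := hmain.const_mul ((Nat.card W : ℝ) / Nat.card (ZMod m)ˣ)
  rw [show (Nat.card W : ℝ) / Nat.card (ZMod m)ˣ * (4 / Nat.card W) = 4 / Nat.card (ZMod m)ˣ by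
    field_simp] at hmain'
  refine hmain'.congr ?_
  simp only [← pSum_const_mul]
  obtain ⟨Bd', hBd'⟩ : ∃ B : ℝ, ∀ x y : Gal(N/ℚ), (conjTo N x y : ℝ) ≤ B :=
    ⟨Nat.card Gal(N/ℚ), fun x y => Nat.cast_le.mpr (Finite.card_subtype_le _)⟩
  have hbconj : ∀ y : Gal(N/ℚ), Bd fun ℓ => (conjTo N (f ℓ) y : ℝ) := fun y =>
    ⟨Bd', fun ℓ => by rw [Nat.abs_cast]; exact hBd' _ _⟩
  refine exists_pSum_congr ?_ ((hbconj g).mul (bd_zmod (pmInd a)) |>.add
    ((hbconj g⁻¹).mul (bd_zmod (pmInd a⁻¹)))) S fun ℓ hℓ => ?_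
  · exact (bd_zmod (m := m) fun _ => _).mul
      ((bd_normCount K).mul ((bd_zmod (pmInd a)).add (bd_zmod (pmInd a⁻¹))))
  · have hfib : ∀ (y : Gal(N/ℚ)) (b : (ZMod m)ˣ), (y, b) ∈ D →
        ∀ c : ZMod m, pmInd b c ≠ 0 → cnt (f ℓ) c = conjTo N (f ℓ) y ∧ subInd W c = 1 := by
      intro y b hyb c hc
      have hyb' : (y, -b) ∈ D := by
        obtain ⟨i, h1, h2⟩ := hyb
        exact ⟨i, h1, h2.symm.imp (fun e => by simp only at e; rw [e, neg_neg]) fun e => by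
          simp only at e; rw [e]⟩
      obtain ⟨v, hv, hvc⟩ : ∃ v, (y, v) ∈ D ∧ ((v : (ZMod m)ˣ) : ZMod m) = c := by
        by_cases h1 : c = b
        · exact ⟨b, hyb, h1.symm⟩
        by_cases h2 : c = -(b : ZMod m)
        · exact ⟨-b, hyb', by rw [Units.val_neg, h2]⟩
        exact absurd (by simp [pmInd, h1, h2]) hc
      refine ⟨Nat.card_congr (Equiv.subtypeEquivRight fun h => ⟨?_, fun e => ⟨v, hvc, e ▸ hv⟩⟩),
        if_pos ⟨v, ⟨_, hv, rfl⟩, hvc⟩⟩
      rintro ⟨w, hw, hmem⟩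
      obtain rfl : w = v := Units.ext (hw.trans hvc.symm)
      exact pmPowers_fst_eq hga hmem hv rfl
    have key : ∀ (y : Gal(N/ℚ)) (b : (ZMod m)ˣ), (y, b) ∈ D →
        u ℓ * pmInd b ((ℓ : ℕ) : ZMod m) * Nat.card W =
          Nat.card (ZMod m)ˣ * ((conjTo N (f ℓ) y : ℝ) * pmInd b ((ℓ : ℕ) : ZMod m)) := by
      intro y b hyb
      rcases eq_or_ne (pmInd b ((ℓ : ℕ) : ZMod m)) 0 with h | h
      · rw [h]; ring
      obtain ⟨h1, h2⟩ := hfib y b hyb _ h
      have := hS ℓ hℓ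
      rw [h1, h2, mul_one] at this
      simp only [hu]
      linear_combination pmInd b ((ℓ : ℕ) : ZMod m) * this
    have k1 := key g a ⟨1, by simp, Or.inl (by simp)⟩
    have k2 := key g⁻¹ a⁻¹ ⟨-1, by simp, Or.inl (by simp)⟩
    rw [div_mul_eq_mul_div, div_eq_iff hUpos.ne']
    simp only [hf] at k1 k2 ⊢
    linear_combination k1 + k2

/-- The prime sum over the classes of `g` and `g⁻¹`. -/
theorem exists_le_pSum_conjTo (g : Gal(N/ℚ)) : ∃ C : ℝ, ∀ᶠ s in 𝓝[>] (1 : ℝ),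
    3 / 2 * logPole s - C ≤ pSum (fun ℓ =>
      (conjTo N (AlgEquiv.restrictNormalHom N (σ ℓ)) g : ℝ) +
        conjTo N (AlgEquiv.restrictNormalHom N (σ ℓ)) g⁻¹) s := by
  obtain ⟨S, hS⟩ := Gal.exists_finset_inertia_fixes N
  have hn : 0 < orderOf g := orderOf_pos g
  obtain ⟨m, hm, hmb, hmod⟩ := Nat.exists_prime_gt_modEq_one (k := 2 * orderOf g ^ 3)
    (max 2 (S.sup id)) (by positivity)
  have : Fact m.Prime := ⟨hm⟩
  have hm2 : 2 < m := lt_of_le_of_lt (le_max_left _ _) hmb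
  have hmS : m ∉ S := fun h => by
    have := (Finset.le_sup (f := id) h).trans (le_max_right 2 _)
    simp only [id] at this
    omega
  have hdvd : 2 * orderOf g ^ 3 ∣ Fintype.card (ZMod m)ˣ := by
    rw [ZMod.card_units]
    exact (Nat.modEq_iff_dvd' hm.one_lt.le).mp hmod.symm
  have hgood := card_good hn hdvd
  set good := Finset.univ.filter fun a : (ZMod m)ˣ => orderOf g ∣ orderOf (a ^ 2)
  set f : Nat.Primes → Gal(N/ℚ) := fun ℓ => AlgEquiv.restrictNormalHom N (σ ℓ) with hf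
  have hsum := logAsymp_sum good fun a ha =>
    logAsymp_conjTo N hA hσ hm2 (hS m hm hmS) g (Finset.mem_filter.mp ha).2
  obtain ⟨C, hC⟩ := hsum
  refine ⟨C, ?_⟩
  have hbconj : ∀ y : Gal(N/ℚ), Bd fun ℓ => (conjTo N (f ℓ) y : ℝ) := fun y =>
    ⟨Nat.card Gal(N/ℚ), fun ℓ => by
      rw [Nat.abs_cast]; exact Nat.cast_le.mpr (Finite.card_subtype_le _)⟩
  have hle : ∀ (b : ZMod m) (t : Finset (ZMod m)ˣ), ∑ a ∈ t, pmInd a b ≤ 2 := fun b t => by
    have h1 : ∀ c : ZMod m, ∑ a ∈ t, (if c = (a : ZMod m) then (1 : ℝ) else 0) ≤ 1 := fun c => by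
      rw [Finset.sum_boole, ← Nat.cast_one, Nat.cast_le, Finset.card_le_one]
      intro x hx y hy
      exact Units.ext ((Finset.mem_filter.mp hx).2.symm.trans (Finset.mem_filter.mp hy).2)
    simp only [pmInd, Finset.sum_add_distrib, eq_neg_iff_add_eq_zero, ← neg_eq_iff_add_eq_zero]
    linarith [h1 b, h1 (-b)]
  filter_upwards [hC, tendsto_logPole.eventually_ge_atTop 0, self_mem_nhdsWithin] with s h hlog hs
  rw [Finset.sum_const, nsmul_eq_mul, Nat.card_eq_fintype_card] at h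
  have hU : (0 : ℝ) < (Fintype.card (ZMod m)ˣ : ℕ) := Nat.cast_pos.mpr Fintype.card_pos
  have hc : (3 : ℝ) ≤ (good.card : ℝ) * (4 / (Fintype.card (ZMod m)ˣ : ℕ)) := by
    rw [← mul_div_assoc, le_div_iff₀ hU]; linarith
  have hs' : (1 : ℝ) < s := Set.mem_Ioi.mp hs
  have h2 : ∀ a ∈ good, Bd fun ℓ : Nat.Primes =>
      (conjTo N (f ℓ) g : ℝ) * pmInd a ((ℓ : ℕ) : ZMod m) +
        (conjTo N (f ℓ) g⁻¹ : ℝ) * pmInd a⁻¹ ((ℓ : ℕ) : ZMod m) := fun a _ =>
    ((hbconj g).mul (bd_zmod (pmInd a))).add ((hbconj g⁻¹).mul (bd_zmod (pmInd a⁻¹)))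
  have h3 : pSum (fun ℓ => ∑ a ∈ good, ((conjTo N (f ℓ) g : ℝ) * pmInd a ((ℓ : ℕ) : ZMod m) +
      (conjTo N (f ℓ) g⁻¹ : ℝ) * pmInd a⁻¹ ((ℓ : ℕ) : ZMod m))) s ≤
      2 * pSum (fun ℓ => (conjTo N (f ℓ) g : ℝ) + conjTo N (f ℓ) g⁻¹) s := by
    rw [← pSum_const_mul]
    refine pSum_mono ?_ ((bd_zmod (m := m) fun _ => 2).mul ((hbconj g).add (hbconj g⁻¹)))
      (fun ℓ => ?_) hs'
    · refine ⟨2 * (Nat.card Gal(N/ℚ) : ℝ) + 2 * Nat.card Gal(N/ℚ), fun ℓ => ?_⟩
      rw [abs_of_nonneg (Finset.sum_nonneg fun a _ => add_nonneg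
        (mul_nonneg (Nat.cast_nonneg _) (by unfold pmInd; positivity))
        (mul_nonneg (Nat.cast_nonneg _) (by unfold pmInd; positivity)))]
      simp only [Finset.sum_add_distrib]
      rw [← Finset.mul_sum, ← Finset.mul_sum,
        ← Finset.sum_image (f := fun a : (ZMod m)ˣ => pmInd a ((ℓ : ℕ) : ZMod m))
          (g := fun a : (ZMod m)ˣ => a⁻¹) inv_injective.injOn, mul_comm (2 : ℝ)]
      exact add_le_add (mul_le_mul (Nat.cast_le.mpr (Finite.card_subtype_le _)) (hle _ _)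
        (Finset.sum_nonneg fun a _ => by unfold pmInd; positivity) (Nat.cast_nonneg _))
        (mul_le_mul (Nat.cast_le.mpr (Finite.card_subtype_le _)) (hle _ _)
        (Finset.sum_nonneg fun a _ => by unfold pmInd; positivity) (Nat.cast_nonneg _))
    · simp only [Finset.sum_add_distrib]
      rw [← Finset.mul_sum, ← Finset.mul_sum,
        ← Finset.sum_image (f := fun a : (ZMod m)ˣ => pmInd a ((ℓ : ℕ) : ZMod m))
          (g := fun a : (ZMod m)ˣ => a⁻¹) inv_injective.injOn, mul_add, mul_comm (2 : ℝ),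
        mul_comm (2 : ℝ)]
      exact add_le_add (mul_le_mul_of_nonneg_left (hle _ _) (Nat.cast_nonneg _))
        (mul_le_mul_of_nonneg_left (hle _ _) (Nat.cast_nonneg _))
  rw [pSum_sum good h2 hs'] at h3
  have := abs_le.mp h
  have h4 := mul_le_mul_of_nonneg_right hc hlog
  have hC0 : 0 ≤ C := le_trans (abs_nonneg _) h
  simp only [hf] at h3 ⊢
  linarith

/-- One-sided Chebotarev for class functions invariant under inversion. -/
theorem chebotarev_lower (F : Gal(N/ℚ) → ℝ) (h0 : ∀ x, 0 ≤ F x)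
    (hconj : ∀ h x, F (h⁻¹ * x * h) = F x) (hinv : ∀ x, F x⁻¹ = F x) :
    ∃ C : ℝ, ∀ᶠ s in 𝓝[>] (1 : ℝ),
      3 / 4 * ((∑ x, F x) / Nat.card Gal(N/ℚ)) * logPole s - C ≤
        pSum (fun ℓ => F (AlgEquiv.restrictNormalHom N (σ ℓ))) s := by
  set f : Nat.Primes → Gal(N/ℚ) := fun ℓ => AlgEquiv.restrictNormalHom N (σ ℓ)
  choose C hC using exists_le_pSum_conjTo N hA hσ
  set n : ℝ := (Nat.card Gal(N/ℚ) : ℝ) with hn
  have hn0 : (0 : ℝ) < n := Nat.cast_pos.mpr Nat.card_pos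
  refine ⟨(∑ x, F x * C x) / (2 * n), ?_⟩
  filter_upwards [self_mem_nhdsWithin, Filter.eventually_all.mpr hC] with s hs h
  have hbd : ∀ x, Bd fun ℓ => F x * ((conjTo N (f ℓ) x : ℝ) + conjTo N (f ℓ) x⁻¹) := fun x =>
    ⟨|F x| * (n + n), fun ℓ => by
      rw [abs_mul, abs_of_nonneg (a := (conjTo N (f ℓ) x : ℝ) + conjTo N (f ℓ) x⁻¹)
        (add_nonneg (Nat.cast_nonneg _) (Nat.cast_nonneg _))]
      exact mul_le_mul_of_nonneg_left (add_le_add (Nat.cast_le.mpr (Finite.card_subtype_le _))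
        (Nat.cast_le.mpr (Finite.card_subtype_le _))) (abs_nonneg _)⟩
  have key : ∀ y, ∑ x, F x * (conjTo N y x : ℝ) = n * F y := fun y => by
    have h1 : ∀ x, (conjTo N y x : ℝ) = ∑ h : Gal(N/ℚ), if h⁻¹ * y * h = x then 1 else 0 :=
      fun x => by rw [conjTo, Nat.card_eq_fintype_card, Fintype.card_subtype, Finset.sum_boole]
    simp only [h1, Finset.mul_sum, mul_ite, mul_one, mul_zero]
    rw [Finset.sum_comm]
    simp only [Finset.sum_ite_eq, Finset.mem_univ, if_true, hconj, Finset.sum_const,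
      Finset.card_univ, nsmul_eq_mul, hn, Nat.card_eq_fintype_card]
  have e : 2 * n * pSum (fun ℓ => F (f ℓ)) s =
      ∑ x, F x * pSum (fun ℓ => (conjTo N (f ℓ) x : ℝ) + conjTo N (f ℓ) x⁻¹) s := by
    simp only [← pSum_const_mul]
    rw [← pSum_sum Finset.univ (fun x _ => hbd x) (Set.mem_Ioi.mp hs)]
    refine congrArg (fun v => pSum v s) (funext fun ℓ => ?_)
    simp only [mul_add, Finset.sum_add_distrib]
    rw [key]
    have e2 : ∑ x, F x * (conjTo N (f ℓ) x⁻¹ : ℝ) = n * F (f ℓ) := by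
      rw [← key, ← Equiv.sum_comp (Equiv.inv Gal(N/ℚ))]
      simp [hinv]
    rw [e2]
    ring
  have h2 : ∑ x, F x * (3 / 2 * logPole s - C x) ≤ 2 * n * pSum (fun ℓ => F (f ℓ)) s :=
    e ▸ Finset.sum_le_sum fun x _ => mul_le_mul_of_nonneg_left (h x) (h0 x)
  simp only [mul_sub, Finset.sum_sub_distrib] at h2
  rw [← Finset.sum_mul] at h2
  rw [show 3 / 4 * ((∑ x, F x) / n) * logPole s - (∑ x, F x * C x) / (2 * n) =
    ((∑ x, F x) * (3 / 2 * logPole s) - ∑ x, F x * C x) / (2 * n) by field_simp; ring,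
    div_le_iff₀ (by linarith)]
  linarith

end Fermat.Agent.WeightOneGalois
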